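import Mathlib
import Fermat.Agent.S18x.Dict.H22_GaussDesc
import Fermat.Agent.S18x.Dict.H20_GaussInputs

/-!
# S34 (W10), inertia bookkeeping I (helper12): the coefficient automorphism of `F_K`

`K` a field, `M` a level, `F_K = modularFunctionFieldFullC K M ⊆ K((q))`.

* `h12_coeffMap_mem_full` : the coefficientwise action of a ring endomorphism of `K` preserves
  `F_K` (the generators `j(q^d)` have integer coefficients);
* `tauF M σ`              : the ring automorphism of `F_K` induced by `σ : K ≃+* K`;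
* `tauF_algebraMap`, `tauF_jd`, `tauF_jK` : it is `σ` on the constants and fixes `j(q^d)`, `j`;
* `h12_iotaK_tauF`        : compatibility with `iotaK` and the prelude's `arithmeticRingAut`
  when `σ` is the restriction of `τ ∈ Gal(ℚ̄ / ℚ)` to `K ⊆ ℚ̄`;
* `h12_mem_gaussRing_coeffMap`, `h12_gaussRed_coeffMap` : if `σ` preserves the valuation subring
  `O` of `K` and acts trivially on its residue field, then `coeffMap σ` preserves the Gauss ring
  of `O` and commutes with the Gauss reduction;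
* `tauF_mem_gaussValM`, `gaussRedM_tauF` : the same on `F_K`;
* `h12_triv` **(TRIV)**   : `tauF σ v - v ∈ π V` for `v` in the Gauss valuation ring `V` of `F_K`;
* `h12_tauF_unif`         : `tauF σ π = ε π` with `ε = σ π / π` a unit of `O`;
* `h12_U` **(U)**         : `tauF σ g / g ∈ V` for every `g ≠ 0`.
-/

set_option autoImplicit false
set_option linter.unusedSectionVars false
set_option linter.style.haveILetI false
set_option synthInstance.maxHeartbeats 400000
set_option maxHeartbeats 1000000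

noncomputable section

namespace Fermat.Agent.S34x.Desc.H12

open AlgebraicCurve ModularCurve IntermediateField HahnSeries
open Fermat.Agent.S18x.Dict.H20 Fermat.Agent.S18x.Dict.H22

local notation "Lbar" => AlgebraicClosure ℚ

section TauF

variable {K : Type*} [Field K] (M : ℕ) [NeZero M]

/-- The coefficientwise action of a ring endomorphism of `K` preserves `F_K`. -/
theorem h12_coeffMap_mem_full (σ : K →+* K) {x : LaurentSeries K}
    (hx : x ∈ modularFunctionFieldFullC K M) :
    coeffMap σ x ∈ modularFunctionFieldFullC K M := by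
  change x ∈ IntermediateField.adjoin K (divisorExpansionsC K M) at hx
  induction hx using IntermediateField.adjoin_induction with
  | mem y hy =>
    obtain ⟨d, hne, hd, rfl⟩ := hy
    have := hne
    have h := coeffMap_jqNModC σ d
    rw [jqNModC] at h
    rw [h]
    exact jqModCd_mem_full K M hd
  | algebraMap c =>
    rw [coeffMap_algebraMap]
    exact IntermediateField.algebraMap_mem _ _
  | add x y _ _ hx hy => rw [map_add]; exact add_mem hx hy
  | mul x y _ _ hx hy => rw [map_mul]; exact mul_mem hx hy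
  | inv x _ hx => rw [map_inv₀]; exact inv_mem hx

/-- The ring automorphism of `F_K` induced by a ring automorphism `σ` of `K`
(acting on the coefficients of the `q`-expansion). -/
def tauF (σ : K ≃+* K) :
    ↥(modularFunctionFieldFullC K M) ≃+* ↥(modularFunctionFieldFullC K M) where
  toFun x := ⟨coeffMap (σ : K →+* K) (x : LaurentSeries K), h12_coeffMap_mem_full M _ x.2⟩
  invFun x := ⟨coeffMap (σ.symm : K →+* K) (x : LaurentSeries K),
    h12_coeffMap_mem_full M _ x.2⟩
  left_inv x := Subtype.ext <| by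
    show coeffMap (σ.symm : K →+* K) (coeffMap (σ : K →+* K) (x : LaurentSeries K))
      = (x : LaurentSeries K)
    rw [coeffMap_coeffMap,
      coeffMap_congr (g := RingHom.id K) (RingHom.ext fun a => σ.symm_apply_apply a)
        (x : LaurentSeries K),
      coeffMap_id]
  right_inv x := Subtype.ext <| by
    show coeffMap (σ : K →+* K) (coeffMap (σ.symm : K →+* K) (x : LaurentSeries K))
      = (x : LaurentSeries K)
    rw [coeffMap_coeffMap,
      coeffMap_congr (g := RingHom.id K) (RingHom.ext fun a => σ.apply_symm_apply a)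
        (x : LaurentSeries K),
      coeffMap_id]
  map_mul' x y :=
    Subtype.ext (map_mul (coeffMap (σ : K →+* K)) (x : LaurentSeries K) (y : LaurentSeries K))
  map_add' x y :=
    Subtype.ext (map_add (coeffMap (σ : K →+* K)) (x : LaurentSeries K) (y : LaurentSeries K))

@[simp]
theorem coe_tauF (σ : K ≃+* K) (x : ↥(modularFunctionFieldFullC K M)) :
    ((tauF M σ x : ↥(modularFunctionFieldFullC K M)) : LaurentSeries K)
      = coeffMap (σ : K →+* K) (x : LaurentSeries K) := rfl

@[simp]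
theorem coe_tauF_symm (σ : K ≃+* K) (x : ↥(modularFunctionFieldFullC K M)) :
    (((tauF M σ).symm x : ↥(modularFunctionFieldFullC K M)) : LaurentSeries K)
      = coeffMap (σ.symm : K →+* K) (x : LaurentSeries K) := rfl

theorem tauF_symm (σ : K ≃+* K) : (tauF M σ).symm = tauF M σ.symm := by
  ext x
  rfl

/-- `tauF` is `σ` on the constants. -/
theorem tauF_algebraMap (σ : K ≃+* K) (c : K) :
    tauF M σ (algebraMap K ↥(modularFunctionFieldFullC K M) c)
      = algebraMap K ↥(modularFunctionFieldFullC K M) (σ c) :=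
  Subtype.ext (coeffMap_algebraMap (σ : K →+* K) c)

/-- `tauF` fixes `j(q^d)`. -/
theorem tauF_jd (σ : K ≃+* K) (d : ℕ) [NeZero d] (hd : d ∣ M) :
    tauF M σ ⟨qExpand K d (jqModC K), jqModCd_mem_full K M hd⟩
      = ⟨qExpand K d (jqModC K), jqModCd_mem_full K M hd⟩ := by
  apply Subtype.ext
  have h := coeffMap_jqNModC (σ : K →+* K) d
  rw [jqNModC] at h
  exact h

/-- `tauF` fixes `j`. -/
theorem tauF_jK (σ : K ≃+* K) : tauF M σ (jK K M) = jK K M := by
  apply Subtype.ext
  show coeffMap (σ : K →+* K) (jqModC K) = jqModC K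
  exact coeffMap_jqModC (σ : K →+* K)

theorem tauF_trans (σ σ' : K ≃+* K) (x : ↥(modularFunctionFieldFullC K M)) :
    tauF M σ (tauF M σ' x) = tauF M (σ'.trans σ) x := by
  apply Subtype.ext
  show coeffMap (σ : K →+* K) (coeffMap (σ' : K →+* K) (x : LaurentSeries K))
    = coeffMap ((σ'.trans σ : K ≃+* K) : K →+* K) (x : LaurentSeries K)
  rw [coeffMap_coeffMap]
  exact coeffMap_congr (RingHom.ext fun _ => rfl) _

end TauF

section Iota

variable (M : ℕ) [NeZero M]

/-- **Compatibility with the prelude's arithmetic Galois action**: if `σ` is the restriction of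
`τ ∈ Gal(ℚ̄ / ℚ)` to the subfield `K`, then `ι ∘ tauF σ = arithmeticRingAut τ ∘ ι`. -/
theorem h12_iotaK_tauF (K : IntermediateField ℚ Lbar) (τ : Lbar ≃ₐ[ℚ] Lbar) (σ : ↥K ≃+* ↥K)
    (hσ : ∀ c : ↥K, ((σ c : ↥K) : Lbar) = τ (c : Lbar))
    (x : ↥(modularFunctionFieldFullC ↥K M)) :
    iotaK ↥K M (tauF M σ x)
      = arithmeticRingAut (modularFunctionFieldFull M) τ (iotaK ↥K M x) := by
  apply Subtype.ext
  show coeffMap (algebraMap ↥K Lbar) (coeffMap (σ : ↥K →+* ↥K) (x : LaurentSeries ↥K))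
    = coeffMap (τ : Lbar →+* Lbar) (coeffMap (algebraMap ↥K Lbar) (x : LaurentSeries ↥K))
  rw [coeffMap_coeffMap, coeffMap_coeffMap]
  exact coeffMap_congr (RingHom.ext fun c => hσ c) _

/-- The restriction of `τ` to a normal subfield `K` of `ℚ̄`, as a ring automorphism. -/
def tauK (K : IntermediateField ℚ Lbar) [Normal ℚ ↥K] (τ : Lbar ≃ₐ[ℚ] Lbar) : ↥K ≃+* ↥K :=
  (τ.restrictNormal ↥K).toRingEquiv

theorem coe_tauK (K : IntermediateField ℚ Lbar) [Normal ℚ ↥K] (τ : Lbar ≃ₐ[ℚ] Lbar) (c : ↥K) :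
    ((tauK K τ c : ↥K) : Lbar) = τ (c : Lbar) :=
  AlgEquiv.restrictNormal_commutes τ ↥K c

/-- `ι ∘ tauF (τ|K) = arithmeticRingAut τ ∘ ι` for a normal subfield `K`. -/
theorem h12_iotaK_tauF_tauK (K : IntermediateField ℚ Lbar) [Normal ℚ ↥K] (τ : Lbar ≃ₐ[ℚ] Lbar)
    (x : ↥(modularFunctionFieldFullC ↥K M)) :
    iotaK ↥K M (tauF M (tauK K τ) x)
      = arithmeticRingAut (modularFunctionFieldFull M) τ (iotaK ↥K M x) :=
  h12_iotaK_tauF M K τ (tauK K τ) (coe_tauK K τ) x

end Iota

section Gauss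

variable {K : Type*} [Field K] (O : ValuationSubring K)

/-- The restriction to `O` of a ring endomorphism of `K` preserving `O`. -/
def resO (σ : K →+* K) (hO : ∀ a ∈ O, σ a ∈ O) : O →+* O :=
  RingHom.codRestrict (σ.comp O.subtype) O (fun a => hO a a.2)

theorem subtype_comp_resO (σ : K →+* K) (hO : ∀ a ∈ O, σ a ∈ O) :
    (O.subtype : O →+* K).comp (resO O σ hO) = σ.comp O.subtype :=
  RingHom.ext fun _ => rfl

theorem h12_coeffMap_gIota (σ : K →+* K) (hO : ∀ a ∈ O, σ a ∈ O) (a : LaurentSeries O) :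
    coeffMap σ (coeffMap (O.subtype : O →+* K) a)
      = coeffMap (O.subtype : O →+* K) (coeffMap (resO O σ hO) a) := by
  rw [coeffMap_coeffMap, coeffMap_coeffMap, subtype_comp_resO]

theorem h12_gRed_resO (σ : K →+* K) (hO : ∀ a ∈ O, σ a ∈ O)
    (hres : ∀ a : O, IsLocalRing.residue O (resO O σ hO a) = IsLocalRing.residue O a)
    (a : LaurentSeries O) :
    coeffMap (IsLocalRing.residue O) (coeffMap (resO O σ hO) a)
      = coeffMap (IsLocalRing.residue O) a := by
  rw [coeffMap_coeffMap]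
  exact coeffMap_congr (RingHom.ext fun c => hres c) _

/-- `coeffMap σ` preserves the Gauss ring of `O`. -/
theorem h12_mem_gaussRing_coeffMap (σ : K →+* K) (hO : ∀ a ∈ O, σ a ∈ O)
    (hres : ∀ a : O, IsLocalRing.residue O (resO O σ hO a) = IsLocalRing.residue O a)
    {x : LaurentSeries K} (hx : x ∈ gaussRing O) : coeffMap σ x ∈ gaussRing O := by
  obtain ⟨a, b, hb, h⟩ := hx
  refine ⟨coeffMap (resO O σ hO) a, coeffMap (resO O σ hO) b, ?_, ?_⟩
  · rw [h12_gRed_resO O σ hO hres]
    exact hb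
  · rw [← h12_coeffMap_gIota, ← h12_coeffMap_gIota, ← map_mul, h]

/-- `coeffMap σ` commutes with the Gauss reduction. -/
theorem h12_gaussRed_coeffMap (σ : K →+* K) (hO : ∀ a ∈ O, σ a ∈ O)
    (hres : ∀ a : O, IsLocalRing.residue O (resO O σ hO a) = IsLocalRing.residue O a)
    {x : LaurentSeries K} (hx : x ∈ gaussRing O) :
    gaussRed O ⟨coeffMap σ x, h12_mem_gaussRing_coeffMap O σ hO hres hx⟩
      = gaussRed O ⟨x, hx⟩ := by
  obtain ⟨a, b, hb, h⟩ := id hx
  have hb' : coeffMap (IsLocalRing.residue O) (coeffMap (resO O σ hO) b) ≠ 0 := by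
    rw [h12_gRed_resO O σ hO hres]
    exact hb
  have h' : coeffMap σ x * coeffMap (O.subtype : O →+* K) (coeffMap (resO O σ hO) b)
      = coeffMap (O.subtype : O →+* K) (coeffMap (resO O σ hO) a) := by
    rw [← h12_coeffMap_gIota, ← h12_coeffMap_gIota, ← map_mul, h]
  have e1 := gaussRed_eq O ⟨coeffMap σ x, h12_mem_gaussRing_coeffMap O σ hO hres hx⟩
    (coeffMap (resO O σ hO) a) (coeffMap (resO O σ hO) b) hb' h'
  have e2 := gaussRed_eq O ⟨x, hx⟩ a b hb h
  rw [h12_gRed_resO O σ hO hres, h12_gRed_resO O σ hO hres] at e1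
  exact e1.trans e2.symm

end Gauss

section GaussM

variable {K : Type*} [Field K] (O : ValuationSubring K) [IsDiscreteValuationRing O]
  (M : ℕ) [NeZero M]

/-- `tauF σ` preserves the Gauss valuation ring of `F_K`. -/
theorem tauF_mem_gaussValM (σ : K ≃+* K) (hO : ∀ a ∈ O, σ a ∈ O)
    (hres : ∀ a : O, IsLocalRing.residue O (resO O (σ : K →+* K) hO a) = IsLocalRing.residue O a)
    {x : ↥(modularFunctionFieldFullC K M)} (hx : x ∈ gaussValM O M) :
    tauF M σ x ∈ gaussValM O M := by
  rw [mem_gaussValM_iff] at hx ⊢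
  exact h12_mem_gaussRing_coeffMap O (σ : K →+* K) hO hres hx

/-- `tauF σ` commutes with the Gauss reduction of `F_K`. -/
theorem gaussRedM_tauF (σ : K ≃+* K) (hO : ∀ a ∈ O, σ a ∈ O)
    (hres : ∀ a : O, IsLocalRing.residue O (resO O (σ : K →+* K) hO a) = IsLocalRing.residue O a)
    (x : gaussValM O M) :
    gaussRedM O M ⟨tauF M σ x, tauF_mem_gaussValM O M σ hO hres x.2⟩ = gaussRedM O M x := by
  rw [gaussRedM_apply, gaussRedM_apply]
  exact h12_gaussRed_coeffMap O (σ : K →+* K) hO hres x.2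

/-- **(TRIV)** `tauF σ v - v ∈ π V` for `v` in the Gauss valuation ring `V` of `F_K`. -/
theorem h12_triv (σ : K ≃+* K) (hO : ∀ a ∈ O, σ a ∈ O)
    (hres : ∀ a : O, IsLocalRing.residue O (resO O (σ : K →+* K) hO a) = IsLocalRing.residue O a)
    (π : O) (hπ : Irreducible π)
    (v : ↥(modularFunctionFieldFullC K M)) (hv : v ∈ gaussValM O M) :
    ∃ c ∈ gaussValM O M, tauF M σ v - v = unifM O M π * c := by
  have hmem : tauF M σ v - v ∈ gaussValM O M :=
    sub_mem (tauF_mem_gaussValM O M σ hO hres hv) hv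
  have hker : gaussRedM O M ⟨tauF M σ v - v, hmem⟩ = 0 := by
    have e : (⟨tauF M σ v - v, hmem⟩ : gaussValM O M)
        = ⟨tauF M σ v, tauF_mem_gaussValM O M σ hO hres hv⟩ - ⟨v, hv⟩ := rfl
    rw [e, map_sub, gaussRedM_tauF O M σ hO hres ⟨v, hv⟩, sub_self]
  obtain ⟨y, hy⟩ := exists_eq_mul_of_gaussRedM_eq_zero O M π hπ hker
  exact ⟨y, y.2, hy⟩

/-- `tauF σ` of the uniformiser. -/
theorem tauF_unifM (σ : K ≃+* K) (hO : ∀ a ∈ O, σ a ∈ O) (π : O) :
    tauF M σ (unifM O M π) = unifM O M (resO O (σ : K →+* K) hO π) :=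
  tauF_algebraMap M σ (π : K)

/-- A unit of `V` stays a unit under `tauF σ`. -/
theorem gaussRedM_tauF_ne_zero (σ : K ≃+* K) (hO : ∀ a ∈ O, σ a ∈ O)
    (hres : ∀ a : O, IsLocalRing.residue O (resO O (σ : K →+* K) hO a) = IsLocalRing.residue O a)
    (u : gaussValM O M) (hu : gaussRedM O M u ≠ 0) :
    gaussRedM O M ⟨tauF M σ u, tauF_mem_gaussValM O M σ hO hres u.2⟩ ≠ 0 := by
  rw [gaussRedM_tauF O M σ hO hres u]
  exact hu

end GaussM

end Fermat.Agent.S34x.Desc.H12
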