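import Mathlib
import Fermat.Agent.S34x.Desc.H12_TauF
import Fermat.Agent.S37x.Move.H17_Values
import Fermat.Agent.S18x.Spec.H26_Charts

/-!
# S34 (W10), inertia bookkeeping II (helper12): inertia elements on `(K, O = A₀ ∩ K)`

`A₀` a valuation subring of `ℚ̄`, `τ` in its inertia group, `K ⊆ ℚ̄` normal over `ℚ`,
`O = A₀.comap (algebraMap K ℚ̄)`, `σ = tauK K τ` the restriction of `τ` to `K`.

* `h12_tauK_mem`     : `σ` preserves `O`;
* `h12_tauK_res`     : `σ` is the identity on the residue field of `O`;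
* `h12_unif_of_aut`  : a ring automorphism preserving the discrete valuation ring `O` (in both
  directions) maps a uniformiser `π` to `ε π`, `ε` a unit of `O`;
* `h12_tauK_unif`    : the same for `σ = tauK K τ`;
* `h12_U_aux`, `h12_U_inertia` : **(U)** `tauF σ g / g` and `g / tauF σ g` lie in the Gauss
  valuation ring;
* `h12_triv_inertia` : **(TRIV)** for inertia, `h12_mem_inertia`, `h12_tauF_const`;
* `h12_tau_chart`, `h12_tau_chart₁₂` : a ring automorphism of `F` fixing the coordinate and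
  preserving the image of `O` preserves the charts.
-/

set_option autoImplicit false
set_option linter.unusedSectionVars false
set_option linter.style.haveILetI false
set_option synthInstance.maxHeartbeats 400000
set_option maxHeartbeats 1000000

noncomputable section

namespace Fermat.Agent.S34x.Desc.H12

open AlgebraicCurve ModularCurve IntermediateField HahnSeries
open Fermat.Agent.S18x.Dict.H20 Fermat.Agent.S18x.Dict.H22
open Fermat.Agent.S18x.Spec.H26

local notation "Lbar" => AlgebraicClosure ℚ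

section Inertia

variable (A₀ : ValuationSubring Lbar) (K : IntermediateField ℚ Lbar) [Normal ℚ ↥K]

theorem h12_mem_comap {a : ↥K} :
    a ∈ A₀.comap (algebraMap ↥K Lbar) ↔ (a : Lbar) ∈ A₀ := Iff.rfl

/-- The restriction of an element of the decomposition group preserves `O = A₀ ∩ K`. -/
theorem h12_tauK_mem_of_decomp {τ : Lbar ≃ₐ[ℚ] Lbar} (hτ : τ ∈ A₀.decompositionSubgroup ℚ)
    (a : ↥K) (ha : a ∈ A₀.comap (algebraMap ↥K Lbar)) :
    tauK K τ a ∈ A₀.comap (algebraMap ↥K Lbar) := by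
  rw [h12_mem_comap, coe_tauK]
  exact Fermat.Agent.S37x.Move.H17.h17_mem_of_decomp hτ ((h12_mem_comap A₀ K).mp ha)

/-- Inertia elements lie in the decomposition group. -/
theorem h12_decomp_of_inertia {τ : Lbar ≃ₐ[ℚ] Lbar} (hτ : τ ∈ A₀.inertiaSubgroupIn ℚ) :
    τ ∈ A₀.decompositionSubgroup ℚ :=
  ((Fermat.Agent.S37x.Asm.H13.mem_inertiaSubgroupIn_iff A₀ τ).mp hτ).1

/-- The restriction of an inertia element preserves `O = A₀ ∩ K`. -/
theorem h12_tauK_mem {τ : Lbar ≃ₐ[ℚ] Lbar} (hτ : τ ∈ A₀.inertiaSubgroupIn ℚ)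
    (a : ↥K) (ha : a ∈ A₀.comap (algebraMap ↥K Lbar)) :
    tauK K τ a ∈ A₀.comap (algebraMap ↥K Lbar) :=
  h12_tauK_mem_of_decomp A₀ K (h12_decomp_of_inertia A₀ hτ) a ha

/-- The inverse of an inertia element is an inertia element. -/
theorem h12_inv_mem_inertia {τ : Lbar ≃ₐ[ℚ] Lbar} (hτ : τ ∈ A₀.inertiaSubgroupIn ℚ) :
    τ⁻¹ ∈ A₀.inertiaSubgroupIn ℚ :=
  (A₀.inertiaSubgroupIn ℚ).inv_mem hτ

/-- A non-unit of `A₀` which lies in `K` is a non-unit of `O`. -/
theorem h12_residue_comap_eq_zero {a : ↥K} (ha : a ∈ A₀.comap (algebraMap ↥K Lbar))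
    (h : IsLocalRing.residue A₀ ⟨(a : Lbar), (h12_mem_comap A₀ K).mp ha⟩ = 0) :
    IsLocalRing.residue (A₀.comap (algebraMap ↥K Lbar)) ⟨a, ha⟩ = 0 := by
  rw [IsLocalRing.residue_eq_zero_iff, IsLocalRing.mem_maximalIdeal, mem_nonunits_iff] at h ⊢
  intro hu
  apply h
  obtain ⟨b, hb⟩ := isUnit_iff_exists_inv.mp hu
  refine isUnit_iff_exists_inv.mpr ⟨⟨((b : ↥K) : Lbar), (h12_mem_comap A₀ K).mp b.2⟩, ?_⟩
  apply Subtype.ext
  have h1 := congrArg (fun t : ↥(A₀.comap (algebraMap ↥K Lbar)) => (((t : ↥K)) : Lbar)) hb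
  simpa using h1

/-- The restriction of an inertia element acts trivially on the residue field of `O`. -/
theorem h12_tauK_res {τ : Lbar ≃ₐ[ℚ] Lbar} (hτ : τ ∈ A₀.inertiaSubgroupIn ℚ)
    (a : ↥(A₀.comap (algebraMap ↥K Lbar))) :
    IsLocalRing.residue (A₀.comap (algebraMap ↥K Lbar))
        (resO (A₀.comap (algebraMap ↥K Lbar)) ((tauK K τ : ↥K ≃+* ↥K) : ↥K →+* ↥K)
          (h12_tauK_mem A₀ K hτ) a)
      = IsLocalRing.residue (A₀.comap (algebraMap ↥K Lbar)) a := by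
  rw [← sub_eq_zero, ← map_sub]
  have hmem : tauK K τ (a : ↥K) - (a : ↥K) ∈ A₀.comap (algebraMap ↥K Lbar) :=
    sub_mem (h12_tauK_mem A₀ K hτ a a.2) a.2
  have e : resO (A₀.comap (algebraMap ↥K Lbar)) ((tauK K τ : ↥K ≃+* ↥K) : ↥K →+* ↥K)
      (h12_tauK_mem A₀ K hτ) a - a = ⟨tauK K τ (a : ↥K) - (a : ↥K), hmem⟩ := rfl
  rw [e]
  apply h12_residue_comap_eq_zero A₀ K hmem
  have ha : ((a : ↥K) : Lbar) ∈ A₀ := (h12_mem_comap A₀ K).mp a.2
  have hτa : τ ((a : ↥K) : Lbar) ∈ A₀ :=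
    Fermat.Agent.S37x.Move.H17.h17_mem_of_decomp (h12_decomp_of_inertia A₀ hτ) ha
  have h1 := Fermat.Agent.S37x.Move.H17.h17_res_inertia hτ ((a : ↥K) : Lbar) ha hτa
  unfold Fermat.Agent.S37x.Asm.res at h1
  have e2 : (⟨((tauK K τ (a : ↥K) - (a : ↥K) : ↥K) : Lbar), (h12_mem_comap A₀ K).mp hmem⟩ : A₀)
      = ⟨τ ((a : ↥K) : Lbar), hτa⟩ - ⟨((a : ↥K) : Lbar), ha⟩ := by
    apply Subtype.ext
    show ((tauK K τ (a : ↥K) - (a : ↥K) : ↥K) : Lbar) = τ ((a : ↥K) : Lbar) - ((a : ↥K) : Lbar)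
    rw [← coe_tauK K τ (a : ↥K)]
    rfl
  rw [e2, map_sub, h1, sub_self]

end Inertia

section Unif

variable {K : Type*} [Field K] (O : ValuationSubring K) [IsDiscreteValuationRing O]

/-- A ring automorphism of `K` preserving `O` in both directions maps a uniformiser `π` to
`ε π` with `ε` a unit of `O`. -/
theorem h12_unif_of_aut (σ : K ≃+* K) (hO : ∀ a ∈ O, σ a ∈ O) (hO' : ∀ a ∈ O, σ.symm a ∈ O)
    (π : O) (hπ : Irreducible π) :
    ∃ ε ε' : O, ε * ε' = 1 ∧ σ (π : K) = (ε : K) * (π : K) := by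
  -- `σ π` and `σ⁻¹ π` are non-units of `O`
  have hnu : ∀ (ρ : K ≃+* K) (hρ : ∀ a ∈ O, ρ a ∈ O) (hρ' : ∀ a ∈ O, ρ.symm a ∈ O),
      ¬ IsUnit (⟨ρ (π : K), hρ _ π.2⟩ : O) := by
    intro ρ hρ hρ' hu
    apply hπ.not_isUnit
    obtain ⟨b, hb⟩ := isUnit_iff_exists_inv.mp hu
    refine isUnit_iff_exists_inv.mpr ⟨⟨ρ.symm (b : K), hρ' _ b.2⟩, ?_⟩
    apply Subtype.ext
    have h1 : ρ (π : K) * (b : K) = 1 := congrArg (fun t : O => (t : K)) hb
    show (π : K) * ρ.symm (b : K) = 1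
    have h2 := congrArg ρ.symm h1
    rw [map_mul, ρ.symm_apply_apply, map_one] at h2
    exact h2
  have hdiv : ∀ (ρ : K ≃+* K) (hρ : ∀ a ∈ O, ρ a ∈ O) (hρ' : ∀ a ∈ O, ρ.symm a ∈ O),
      ∃ c : O, ρ (π : K) = (π : K) * (c : K) := by
    intro ρ hρ hρ'
    have hm : (⟨ρ (π : K), hρ _ π.2⟩ : O) ∈ IsLocalRing.maximalIdeal O :=
      (IsLocalRing.mem_maximalIdeal _).mpr (hnu ρ hρ hρ')
    rw [hπ.maximalIdeal_eq, Ideal.mem_span_singleton'] at hm
    obtain ⟨c, hc⟩ := hm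
    refine ⟨c, ?_⟩
    have h1 := congrArg (fun t : O => (t : K)) hc
    simp only [] at h1
    rw [mul_comm]
    exact h1.symm
  obtain ⟨ε, hε⟩ := hdiv σ hO hO'
  obtain ⟨c, hc⟩ := hdiv σ.symm hO' (by simpa using hO)
  have hπ0 : (π : K) ≠ 0 := by
    intro h
    exact hπ.ne_zero (Subtype.ext h)
  refine ⟨ε, ⟨σ (c : K), hO _ c.2⟩, ?_, by rw [hε, mul_comm]⟩
  apply Subtype.ext
  show (ε : K) * σ (c : K) = 1
  have h1 := congrArg σ hc
  rw [σ.apply_symm_apply, map_mul, hε] at h1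
  -- `π = π ε σ c`
  have h2 : (π : K) * ((ε : K) * σ (c : K)) = (π : K) * 1 := by
    rw [mul_one, ← mul_assoc]
    exact h1.symm
  exact mul_left_cancel₀ hπ0 h2

end Unif

section InertiaUnif

variable (A₀ : ValuationSubring Lbar) (K : IntermediateField ℚ Lbar) [Normal ℚ ↥K]

theorem tauK_symm_apply (τ : Lbar ≃ₐ[ℚ] Lbar) (a : ↥K) :
    (tauK K τ).symm a = tauK K τ⁻¹ a := by
  apply (tauK K τ).injective
  rw [RingEquiv.apply_symm_apply]
  apply Subtype.ext
  rw [coe_tauK, coe_tauK]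
  show a.1 = τ (τ.symm a.1)
  rw [τ.apply_symm_apply]

/-- The restriction of an inertia element maps a uniformiser `π` of `O` to `ε π`. -/
theorem h12_tauK_unif [IsDiscreteValuationRing (A₀.comap (algebraMap ↥K Lbar))]
    {τ : Lbar ≃ₐ[ℚ] Lbar} (hτ : τ ∈ A₀.inertiaSubgroupIn ℚ)
    (π : A₀.comap (algebraMap ↥K Lbar)) (hπ : Irreducible π) :
    ∃ ε ε' : A₀.comap (algebraMap ↥K Lbar), ε * ε' = 1 ∧
      tauK K τ (π : ↥K) = (ε : ↥K) * (π : ↥K) := by
  refine h12_unif_of_aut (A₀.comap (algebraMap ↥K Lbar)) (tauK K τ) (h12_tauK_mem A₀ K hτ) ?_ π hπ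
  intro a ha
  rw [tauK_symm_apply]
  exact h12_tauK_mem A₀ K (h12_inv_mem_inertia A₀ hτ) a ha

end InertiaUnif

section U

variable {K : Type*} [Field K] (O : ValuationSubring K) [IsDiscreteValuationRing O]
  (M : ℕ) [NeZero M]

/-- **(U), one direction**: `tauF σ g / g` lies in the Gauss valuation ring. -/
theorem h12_U_aux (σ : K ≃+* K) (hO : ∀ a ∈ O, σ a ∈ O)
    (hres : ∀ a : O, IsLocalRing.residue O (resO O (σ : K →+* K) hO a) = IsLocalRing.residue O a)
    (π ε ε' : O) (hπ : Irreducible π) (hεε' : ε * ε' = 1) (hε : σ (π : K) = (ε : K) * (π : K))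
    (g : ↥(modularFunctionFieldFullC K M)) (hg : g ≠ 0) :
    tauF M σ g / g ∈ gaussValM O M := by
  obtain ⟨e, u, hgu, hu⟩ := gaussValM_exists_zpow_mul O M π hπ hg
  have hπ0 : unifM O M π ≠ 0 := by
    intro h
    apply hπ.ne_zero
    have h1 : algebraMap K ↥(modularFunctionFieldFullC K M) (π : K) = 0 := h
    have h2 := (map_eq_zero_iff _ (algebraMap K ↥(modularFunctionFieldFullC K M)).injective).mp h1
    exact Subtype.ext h2
  have hu0 : (u : ↥(modularFunctionFieldFullC K M)) ≠ 0 := by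
    intro h
    apply hu
    have : u = 0 := Subtype.ext h
    rw [this, map_zero]
  -- units of `O` inside `F`
  have hεF : unifM O M ε * unifM O M ε' = 1 := by
    show algebraMap K ↥(modularFunctionFieldFullC K M) (ε : K)
      * algebraMap K ↥(modularFunctionFieldFullC K M) (ε' : K) = 1
    rw [← map_mul]
    have h1 : (ε : K) * (ε' : K) = 1 := congrArg (fun t : O => (t : K)) hεε'
    rw [h1, map_one]
  have hτπ : tauF M σ (unifM O M π) = unifM O M ε * unifM O M π := by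
    show tauF M σ (algebraMap K ↥(modularFunctionFieldFullC K M) (π : K)) = _
    rw [tauF_algebraMap, hε, map_mul]
    rfl
  have hmemC : ∀ c : O, unifM O M c ∈ gaussValM O M := by
    intro c
    rw [mem_gaussValM_iff]
    show ((algebraMap K ↥(modularFunctionFieldFullC K M) (c : K) :
      ↥(modularFunctionFieldFullC K M)) : LaurentSeries K) ∈ gaussRing O
    have h1 : ((algebraMap K ↥(modularFunctionFieldFullC K M) (c : K) :
        ↥(modularFunctionFieldFullC K M)) : LaurentSeries K)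
        = HahnSeries.C (c : K) := inclM_unifM O M c
    rw [h1]
    exact C_mem_gaussRing O c
  -- `tauF g / g = ε ^ e * (tauF u / u)`
  have hε0 : unifM O M ε ≠ 0 := left_ne_zero_of_mul_eq_one hεF
  have hcalc : tauF M σ g / g
      = unifM O M ε ^ e * (tauF M σ (u : ↥(modularFunctionFieldFullC K M))
          * ((u : ↥(modularFunctionFieldFullC K M)))⁻¹) := by
    have hτu0 : tauF M σ (u : ↥(modularFunctionFieldFullC K M)) ≠ 0 := by
      intro h
      exact hu0 ((map_eq_zero_iff _ (tauF M σ).injective).mp h)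
    have hπe0 : unifM O M π ^ e ≠ 0 := zpow_ne_zero _ hπ0
    rw [hgu, map_mul, map_zpow₀, hτπ, mul_zpow]
    field_simp
  rw [hcalc]
  refine mul_mem ?_ (mul_mem (tauF_mem_gaussValM O M σ hO hres u.2) ?_)
  · -- `ε ^ e ∈ V`
    rcases Int.le_total 0 e with he | he
    · lift e to ℕ using he
      rw [zpow_natCast]
      exact pow_mem (hmemC ε) e
    · obtain ⟨k, hk⟩ : ∃ k : ℕ, e = -(k : ℤ) := ⟨e.natAbs, by omega⟩
      rw [hk, zpow_neg, zpow_natCast, ← inv_pow]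
      have hinv : (unifM O M ε)⁻¹ = unifM O M ε' := inv_eq_of_mul_eq_one_right hεF
      rw [hinv]
      exact pow_mem (hmemC ε') k
  · -- `u⁻¹ ∈ V`
    have hunit : IsUnit u := (isUnit_iff_gaussRedM_ne_zero O M).mpr hu
    obtain ⟨w, hw⟩ := isUnit_iff_exists_inv.mp hunit
    have h1 : (u : ↥(modularFunctionFieldFullC K M)) * (w : ↥(modularFunctionFieldFullC K M))
        = 1 :=
      congrArg (fun t : gaussValM O M => (t : ↥(modularFunctionFieldFullC K M))) hw
    have h2 : ((u : ↥(modularFunctionFieldFullC K M)))⁻¹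
        = (w : ↥(modularFunctionFieldFullC K M)) :=
      inv_eq_of_mul_eq_one_right h1
    rw [h2]
    exact w.2

end U

section InertiaGauss

variable (A₀ : ValuationSubring Lbar) (K : IntermediateField ℚ Lbar) [Normal ℚ ↥K]
  [IsDiscreteValuationRing (A₀.comap (algebraMap ↥K Lbar))] (M : ℕ) [NeZero M]

theorem tauK_symm (τ : Lbar ≃ₐ[ℚ] Lbar) : (tauK K τ).symm = tauK K τ⁻¹ :=
  RingEquiv.ext (tauK_symm_apply K τ)

/-- Inertia preserves the Gauss valuation ring of `F_K`. -/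
theorem h12_mem_inertia {τ : Lbar ≃ₐ[ℚ] Lbar} (hτ : τ ∈ A₀.inertiaSubgroupIn ℚ)
    {x : ↥(modularFunctionFieldFullC ↥K M)}
    (hx : x ∈ gaussValM (A₀.comap (algebraMap ↥K Lbar)) M) :
    tauF M (tauK K τ) x ∈ gaussValM (A₀.comap (algebraMap ↥K Lbar)) M :=
  tauF_mem_gaussValM _ M (tauK K τ) (h12_tauK_mem A₀ K hτ) (h12_tauK_res A₀ K hτ) hx

/-- **(TRIV) for inertia**: `τ v - v ∈ π V` on the Gauss valuation ring `V` of `F_K`. -/
theorem h12_triv_inertia {τ : Lbar ≃ₐ[ℚ] Lbar} (hτ : τ ∈ A₀.inertiaSubgroupIn ℚ)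
    (π : A₀.comap (algebraMap ↥K Lbar)) (hπ : Irreducible π)
    (v : ↥(modularFunctionFieldFullC ↥K M))
    (hv : v ∈ gaussValM (A₀.comap (algebraMap ↥K Lbar)) M) :
    ∃ c ∈ gaussValM (A₀.comap (algebraMap ↥K Lbar)) M,
      tauF M (tauK K τ) v - v = unifM (A₀.comap (algebraMap ↥K Lbar)) M π * c :=
  h12_triv _ M (tauK K τ) (h12_tauK_mem A₀ K hτ) (h12_tauK_res A₀ K hτ) π hπ v hv

/-- **(U) for inertia**: `τ g / g` and `g / τ g` lie in the Gauss valuation ring of `F_K`. -/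
theorem h12_U_inertia {τ : Lbar ≃ₐ[ℚ] Lbar} (hτ : τ ∈ A₀.inertiaSubgroupIn ℚ)
    (g : ↥(modularFunctionFieldFullC ↥K M)) (hg : g ≠ 0) :
    tauF M (tauK K τ) g / g ∈ gaussValM (A₀.comap (algebraMap ↥K Lbar)) M ∧
      g / tauF M (tauK K τ) g ∈ gaussValM (A₀.comap (algebraMap ↥K Lbar)) M := by
  obtain ⟨π, hπ⟩ := IsDiscreteValuationRing.exists_irreducible (A₀.comap (algebraMap ↥K Lbar))
  obtain ⟨ε, ε', hεε', hε⟩ := h12_tauK_unif A₀ K hτ π hπ
  refine ⟨h12_U_aux _ M (tauK K τ) (h12_tauK_mem A₀ K hτ) (h12_tauK_res A₀ K hτ) π ε ε' hπ hεε'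
    hε g hg, ?_⟩
  have hτ' := h12_inv_mem_inertia A₀ hτ
  obtain ⟨ε₂, ε₂', hεε₂, hε₂⟩ := h12_tauK_unif A₀ K hτ' π hπ
  have hg' : tauF M (tauK K τ) g ≠ 0 := by
    intro h
    exact hg ((map_eq_zero_iff _ (tauF M (tauK K τ)).injective).mp h)
  have h := h12_U_aux _ M (tauK K τ⁻¹) (h12_tauK_mem A₀ K hτ') (h12_tauK_res A₀ K hτ') π ε₂ ε₂'
    hπ hεε₂ hε₂ (tauF M (tauK K τ) g) hg'
  have e : tauF M (tauK K τ⁻¹) (tauF M (tauK K τ) g) = g := by
    rw [← tauK_symm, ← tauF_symm]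
    exact (tauF M (tauK K τ)).symm_apply_apply g
  rwa [e] at h

/-- Inertia and constants of `O`: `τ` maps the image of `O` in `F_K` into itself. -/
theorem h12_tauF_const {τ : Lbar ≃ₐ[ℚ] Lbar} (hτ : τ ∈ A₀.inertiaSubgroupIn ℚ)
    (c : A₀.comap (algebraMap ↥K Lbar)) :
    ∃ c' : A₀.comap (algebraMap ↥K Lbar),
      tauF M (tauK K τ) (unifM (A₀.comap (algebraMap ↥K Lbar)) M c)
        = unifM (A₀.comap (algebraMap ↥K Lbar)) M c' :=
  ⟨⟨tauK K τ (c : ↥K), h12_tauK_mem A₀ K hτ c c.2⟩, tauF_algebraMap M (tauK K τ) (c : ↥K)⟩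

end InertiaGauss

section Chart

variable {O F : Type*} [CommRing O] [Field F] [Algebra O F]

/-- A ring automorphism of `F` preserving the image of `O` and a set `s` preserves
`Algebra.adjoin O s`. -/
theorem h12_tau_adjoin (τ : F →+* F) (s : Set F) (hs : ∀ x ∈ s, τ x ∈ Algebra.adjoin O s)
    (hO : ∀ c : O, ∃ c' : O, τ (algebraMap O F c) = algebraMap O F c')
    {a : F} (ha : a ∈ Algebra.adjoin O s) : τ a ∈ Algebra.adjoin O s := by
  induction ha using Algebra.adjoin_induction with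
  | mem x hx => exact hs x hx
  | algebraMap c =>
    obtain ⟨c', hc'⟩ := hO c
    rw [hc']
    exact Subalgebra.algebraMap_mem _ c'
  | add x y _ _ hx hy => rw [map_add]; exact add_mem hx hy
  | mul x y _ _ hx hy => rw [map_mul]; exact mul_mem hx hy

/-- Integrality over `Algebra.adjoin O s` is preserved by a ring endomorphism of `F` which
preserves `Algebra.adjoin O s`. -/
theorem h12_tau_isIntegral (τ : F →+* F) (s : Set F)
    (hs : ∀ x ∈ s, τ x ∈ Algebra.adjoin O s)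
    (hO : ∀ c : O, ∃ c' : O, τ (algebraMap O F c) = algebraMap O F c')
    {b : F} (hb : IsIntegral (Algebra.adjoin O s) b) : IsIntegral (Algebra.adjoin O s) (τ b) := by
  let φ : ↥(Algebra.adjoin O s) →+* ↥(Algebra.adjoin O s) :=
    RingHom.codRestrict (τ.comp (Algebra.adjoin O s).toSubring.subtype)
      (Algebra.adjoin O s).toSubring (fun a => h12_tau_adjoin τ s hs hO a.2)
  exact IsIntegral.map_of_comp_eq φ τ (RingHom.ext fun a => rfl) hb

/-- **`τ` preserves the chart** `chart O x` when `τ x = x` and `τ` preserves the image of `O`. -/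
theorem h12_tau_chart (τ : F →+* F) (x : F) (hx : τ x = x)
    (hO : ∀ c : O, ∃ c' : O, τ (algebraMap O F c) = algebraMap O F c')
    (b : F) (hb : b ∈ chart O x) : τ b ∈ chart O x := by
  rw [mem_chart] at hb ⊢
  refine h12_tau_isIntegral τ {x} ?_ hO hb
  intro y hy
  rw [Set.mem_singleton_iff.mp hy, hx]
  exact Algebra.subset_adjoin (Set.mem_singleton x)

/-- **`τ` preserves `chart₁₂ O x x'`** when `τ x = x`, `τ x' = x'`. -/
theorem h12_tau_chart₁₂ (τ : F →+* F) (x x' : F) (hx : τ x = x) (hx' : τ x' = x')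
    (hO : ∀ c : O, ∃ c' : O, τ (algebraMap O F c) = algebraMap O F c')
    (b : F) (hb : b ∈ chart₁₂ O x x') : τ b ∈ chart₁₂ O x x' := by
  rw [mem_chart₁₂] at hb ⊢
  refine h12_tau_isIntegral τ {x, x'} ?_ hO hb
  intro y hy
  rcases hy with rfl | hy
  · rw [hx]
    exact Algebra.subset_adjoin (Set.mem_insert _ _)
  · rw [Set.mem_singleton_iff.mp hy, hx']
    exact Algebra.subset_adjoin (Set.mem_insert_of_mem _ (Set.mem_singleton _))

end Chart

end Fermat.Agent.S34x.Desc.H12
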