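import Mathlib
import Fermat.Agent.S34x.Desc.H12_TauF
import Fermat.Agent.S18x.IG.H28_HmInst

/-!
# S34 (W10), (H3): the coefficient automorphism fixes the Hauptmodul coordinate (helper18)

`tauF M σ` (helper12: `σ` acting on the coefficients of the `q`-expansion) fixes every modular
function whose `q`-expansion has integral coefficients, in particular the base coordinates
`coordM K M x₀ hmem` (helper29), `coord2 K M hM`, `coord3 K M hM` and their inverses.  This is
the hypothesis `τ x = x` of `h12_tau_chart` (`τ` preserves the charts `chart O x`,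
`chart O x⁻¹`).
-/

set_option autoImplicit false

open ModularCurve HahnSeries

namespace Fermat.Agent.S34x.Desc.H18

open Fermat.Agent.S34x.Desc.H12 Fermat.Agent.S18x.IG

variable (K : Type) [Field K] (M : ℕ) [NeZero M]

/-- `coeffMap σ` fixes the Laurent series with integral coefficients. -/
theorem h18_coeffMap_int (σ : K →+* K) (x₀ : LaurentSeries ℤ) :
    coeffMap σ (coeffMap (Int.castRingHom K) x₀) = coeffMap (Int.castRingHom K) x₀ := by
  rw [coeffMap_coeffMap]
  exact coeffMap_congr (RingHom.ext_int _ _) x₀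

/-- `tauF` fixes every element of `F_M` whose `q`-expansion has integral coefficients. -/
theorem h18_tauF_int (σ : K ≃+* K) (x₀ : LaurentSeries ℤ)
    (x : ↥(modularFunctionFieldFullC K M))
    (hx : (x : LaurentSeries K) = coeffMap (Int.castRingHom K) x₀) : tauF M σ x = x := by
  apply Subtype.ext
  rw [coe_tauF, hx]
  exact h18_coeffMap_int K (σ : K →+* K) x₀

/-- `tauF` fixes the base coordinate. -/
theorem h18_tauF_coordM (σ : K ≃+* K) (x₀ : LaurentSeries ℤ)
    (hmem : coeffMap (Int.castRingHom K) x₀ ∈ modularFunctionFieldFullC K M) :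
    tauF M σ (H29.coordM K M x₀ hmem) = H29.coordM K M x₀ hmem :=
  h18_tauF_int K M σ x₀ _ (H29.coe_coordM K M x₀ hmem)

theorem h18_tauF_coordM_inv (σ : K ≃+* K) (x₀ : LaurentSeries ℤ)
    (hmem : coeffMap (Int.castRingHom K) x₀ ∈ modularFunctionFieldFullC K M) :
    tauF M σ (H29.coordM K M x₀ hmem)⁻¹ = (H29.coordM K M x₀ hmem)⁻¹ := by
  rw [map_inv₀, h18_tauF_coordM]

variable [CharZero K]

/-- `tauF` fixes the Hauptmodul of level `2`. -/
theorem h18_tauF_coord2 (σ : K ≃+* K) (hM : 2 ∣ M) :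
    tauF M σ (H28.coord2 K M hM) = H28.coord2 K M hM :=
  h18_tauF_coordM K M σ _ _

theorem h18_tauF_coord2_inv (σ : K ≃+* K) (hM : 2 ∣ M) :
    tauF M σ (H28.coord2 K M hM)⁻¹ = (H28.coord2 K M hM)⁻¹ := by
  rw [map_inv₀, h18_tauF_coord2]

/-- `tauF` fixes the Hauptmodul of level `3`. -/
theorem h18_tauF_coord3 (σ : K ≃+* K) (hM : 3 ∣ M) :
    tauF M σ (H28.coord3 K M hM) = H28.coord3 K M hM :=
  h18_tauF_coordM K M σ _ _

theorem h18_tauF_coord3_inv (σ : K ≃+* K) (hM : 3 ∣ M) :
    tauF M σ (H28.coord3 K M hM)⁻¹ = (H28.coord3 K M hM)⁻¹ := by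
  rw [map_inv₀, h18_tauF_coord3]

end Fermat.Agent.S34x.Desc.H18
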