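import Mathlib
import Fermat.Agent.S34x.Desc.H12_TauF
import Fermat.Agent.S18x.Dict.H22_GaussDesc

/-!
# S34 (W10), stage (H3) (helper12): the descent `ℚ̄ → K` of the Kummer form of (SS)

`L = ℚ̄`, `F_L = modularFunctionFieldBar N`, `F_K = modularFunctionFieldFullC K N` for a number
field `K ⊆ L`, `ι = iotaK K N`, `τ ∈ Gal(L / ℚ)`, `σ = tauK K τ` for `K` normal over `ℚ`.

* `h12_exists_normal_ge`  : every number field in `L` lies in a number field normal over `ℚ`;
* `h12_iotaK_secondDiff`  : `ι (σ σ f * f / (σ f) ^ 2) = τ τ (ι f) * ι f / (τ (ι f)) ^ 2`;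
* `h12_descent_T`         : descent of `y ∈ F_L` with `m ∣ ord_P y` for all `P`, together with a
  finite set `T` of auxiliary functions, to every finite normal `K ≥ K₀`;
* `h12_stKumSS_of_large`  : the body of helper19's `StKumSS N p τ` from the `K`-level statement
  for all finite normal `K ≥ K₁(y)`;
* `h12_stKumSS_of_step`   : **the export of (H3)** (JOB 2 of the chief's #1514): the body of
  `StKumSS N p τ` from the ONE-STEP statement `p ^ k → p ^ (k + 1)` over all finite normal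
  `K ≥ K₁(y, u)`, by induction on `k ≤ n` at the `ℚ̄`-level.
-/

set_option autoImplicit false
set_option linter.unusedSectionVars false
set_option linter.style.haveILetI false
set_option synthInstance.maxHeartbeats 400000
set_option maxHeartbeats 1000000

noncomputable section

namespace Fermat.Agent.S34x.Desc.H12

open AlgebraicCurve ModularCurve IntermediateField HahnSeries
open Fermat.Agent.S18x.Dict.H20 Fermat.Agent.S18x.Dict.H22

local notation "Lbar" => AlgebraicClosure ℚ

/-- Every number field inside `ℚ̄` is contained in a number field which is normal over `ℚ`. -/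
theorem h12_exists_normal_ge (K₀ : IntermediateField ℚ Lbar) [FiniteDimensional ℚ ↥K₀] :
    ∃ K : IntermediateField ℚ Lbar, K₀ ≤ K ∧ FiniteDimensional ℚ ↥K ∧ Normal ℚ ↥K := by
  haveI hac : IsAlgClosure ℚ Lbar :=
    (inferInstance : @IsAlgClosure ℚ (AlgebraicClosure ℚ) _ _ (AlgebraicClosure.instAlgebra ℚ) _)
  haveI : Normal ℚ Lbar := IsAlgClosure.normal ℚ Lbar
  exact ⟨IntermediateField.normalClosure ℚ ↥K₀ Lbar, K₀.le_normalClosure,
    normalClosure.is_finiteDimensional ℚ ↥K₀ Lbar, normalClosure.normal ℚ ↥K₀ Lbar⟩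

section Compat

variable (N : ℕ) [NeZero N] (K : IntermediateField ℚ Lbar) [Normal ℚ ↥K]
  (τ : Lbar ≃ₐ[ℚ] Lbar)

/-- `ι` commutes with the second difference. -/
theorem h12_iotaK_secondDiff (f : ↥(modularFunctionFieldFullC ↥K N)) :
    iotaK ↥K N (tauF N (tauK K τ) (tauF N (tauK K τ) f) * f / (tauF N (tauK K τ) f) ^ 2)
      = arithmeticRingAut (modularFunctionFieldFull N) τ
            (arithmeticRingAut (modularFunctionFieldFull N) τ (iotaK ↥K N f)) * iotaK ↥K N f /
          (arithmeticRingAut (modularFunctionFieldFull N) τ (iotaK ↥K N f)) ^ 2 := by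
  rw [map_div₀, map_mul, map_pow, h12_iotaK_tauF_tauK, h12_iotaK_tauF_tauK]

end Compat

section Descent

variable (N : ℕ) [NeZero N]

/-- **Descent with auxiliary functions**: `y ∈ F_L` with `m ∣ ord_P y` for all places `P`, and
a finite set `T ⊆ F_L`, descend to every number field `K ≥ K₀`. -/
theorem h12_descent_T (m : ℕ) (y : ↥(modularFunctionFieldBar N)) (hy : y ≠ 0)
    (hdiv : ∀ P : Place Lbar ↥(modularFunctionFieldBar N), (m : ℤ) ∣ P.ord y)
    (T : Finset ↥(modularFunctionFieldBar N)) :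
    ∃ K₀ : IntermediateField ℚ Lbar, FiniteDimensional ℚ ↥K₀ ∧
      ∀ K : IntermediateField ℚ Lbar, K₀ ≤ K →
        (∀ x ∈ T, ∃ x' : ↥(modularFunctionFieldFullC ↥K N), iotaK ↥K N x' = x) ∧
        ∃ f : ↥(modularFunctionFieldFullC ↥K N), iotaK ↥K N f = y ∧ f ≠ 0 ∧
          ∀ v : Place ↥K ↥(modularFunctionFieldFullC ↥K N), (m : ℤ) ∣ v.ord f := by
  obtain ⟨K₀, hfin, hK₀⟩ := Fermat.Agent.S18x.Dict.H29.h29_div_descent N
    (Fermat.Agent.S18x.Desc.H19.h19_exists_descent_finset N) m y hy hdiv T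
  refine ⟨K₀, hfin, fun K hK => ?_⟩
  obtain ⟨hT, f, hf, hv⟩ := hK₀ K hK
  refine ⟨hT, f, hf, ?_, hv⟩
  intro h0
  apply hy
  rw [← hf, h0, map_zero]

/-- **The export of (H3)**: the Kummer form of (SS) over `ℚ̄` (the body of `StKumSS N p τ`)
from the Kummer form of (SS) over all sufficiently large number fields `K` normal over `ℚ`;
"sufficiently large" may depend on the function `y`. -/
theorem h12_stKumSS_of_large (p : ℕ) (τ : Lbar ≃ₐ[ℚ] Lbar)
    (h : ∀ (n : ℕ) (y : ↥(modularFunctionFieldBar N)), y ≠ 0 →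
      (∀ P : Place Lbar ↥(modularFunctionFieldBar N), ((p ^ n : ℕ) : ℤ) ∣ P.ord y) →
      ∃ K₁ : IntermediateField ℚ Lbar, FiniteDimensional ℚ ↥K₁ ∧
        ∀ K : IntermediateField ℚ Lbar, K₁ ≤ K → FiniteDimensional ℚ ↥K → ∀ _ : Normal ℚ ↥K,
          ∀ f : ↥(modularFunctionFieldFullC ↥K N), iotaK ↥K N f = y → f ≠ 0 →
            (∀ v : Place ↥K ↥(modularFunctionFieldFullC ↥K N), ((p ^ n : ℕ) : ℤ) ∣ v.ord f) →
            ∃ u : ↥(modularFunctionFieldBar N),
              u ^ (p ^ n) = iotaK ↥K N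
                (tauF N (tauK K τ) (tauF N (tauK K τ) f) * f / (tauF N (tauK K τ) f) ^ 2)) :
    ∀ (n : ℕ) (f : ↥(modularFunctionFieldBar N)), f ≠ 0 →
      (∀ P : Place Lbar ↥(modularFunctionFieldBar N), ((p ^ n : ℕ) : ℤ) ∣ P.ord f) →
      ∃ u : ↥(modularFunctionFieldBar N),
        u ^ (p ^ n) = arithmeticRingAut (modularFunctionFieldFull N) τ
            (arithmeticRingAut (modularFunctionFieldFull N) τ f) * f /
          (arithmeticRingAut (modularFunctionFieldFull N) τ f) ^ 2 := by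
  intro n y hy hdiv
  obtain ⟨K₁, hfin₁, hK₁⟩ := h n y hy hdiv
  obtain ⟨K₀, hfin₀, hK₀⟩ := h12_descent_T N (p ^ n) y hy hdiv ∅
  haveI := hfin₀
  haveI := hfin₁
  haveI hfin : FiniteDimensional ℚ ↥(K₀ ⊔ K₁) := IntermediateField.finiteDimensional_sup K₀ K₁
  obtain ⟨K, hK, hKfin, hKn⟩ := h12_exists_normal_ge (K₀ ⊔ K₁)
  obtain ⟨-, f, hf, hf0, hv⟩ := hK₀ K (le_trans le_sup_left hK)
  obtain ⟨u, hu⟩ := hK₁ K (le_trans le_sup_right hK) hKfin hKn f hf hf0 hv
  refine ⟨u, ?_⟩
  rw [hu, h12_iotaK_secondDiff N K τ f, hf]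

/-- `ι` is injective. -/
theorem h12_iotaK_injective (K : IntermediateField ℚ Lbar) :
    Function.Injective (iotaK ↥K N) :=
  (iotaK ↥K N).injective

/-- **(H3), JOB 2: the `ℚ̄`-level induction** (chief's #1514).  The Kummer form of (SS) over
`ℚ̄` (the body of `StKumSS N p τ`) from the ONE-STEP statement over all sufficiently large number
fields `K` normal over `ℚ`: if the second difference of `y` is already a `p ^ k`-th power
`u ^ (p ^ k)` (`k < n`), then over every large `K` to which `y` and `u` descend (as `f`, `e`,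
with `e ^ (p ^ k) = δ² f`), the second difference is a `p ^ (k + 1)`-th power in `F_L`. -/
theorem h12_stKumSS_of_step (p : ℕ) (τ : Lbar ≃ₐ[ℚ] Lbar)
    (h : ∀ (n : ℕ) (y : ↥(modularFunctionFieldBar N)), y ≠ 0 →
      (∀ P : Place Lbar ↥(modularFunctionFieldBar N), ((p ^ n : ℕ) : ℤ) ∣ P.ord y) →
      ∀ k : ℕ, k < n → ∀ u : ↥(modularFunctionFieldBar N),
        u ^ (p ^ k) = arithmeticRingAut (modularFunctionFieldFull N) τ
            (arithmeticRingAut (modularFunctionFieldFull N) τ y) * y /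
          (arithmeticRingAut (modularFunctionFieldFull N) τ y) ^ 2 →
      ∃ K₁ : IntermediateField ℚ Lbar, FiniteDimensional ℚ ↥K₁ ∧
        ∀ K : IntermediateField ℚ Lbar, K₁ ≤ K → FiniteDimensional ℚ ↥K → ∀ _ : Normal ℚ ↥K,
          ∀ f e : ↥(modularFunctionFieldFullC ↥K N), iotaK ↥K N f = y → iotaK ↥K N e = u →
            f ≠ 0 →
            (∀ v : Place ↥K ↥(modularFunctionFieldFullC ↥K N), ((p ^ n : ℕ) : ℤ) ∣ v.ord f) →
            e ^ (p ^ k)
              = tauF N (tauK K τ) (tauF N (tauK K τ) f) * f / (tauF N (tauK K τ) f) ^ 2 →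
            ∃ t : ↥(modularFunctionFieldBar N),
              t ^ (p ^ (k + 1)) = iotaK ↥K N
                (tauF N (tauK K τ) (tauF N (tauK K τ) f) * f / (tauF N (tauK K τ) f) ^ 2)) :
    ∀ (n : ℕ) (f : ↥(modularFunctionFieldBar N)), f ≠ 0 →
      (∀ P : Place Lbar ↥(modularFunctionFieldBar N), ((p ^ n : ℕ) : ℤ) ∣ P.ord f) →
      ∃ u : ↥(modularFunctionFieldBar N),
        u ^ (p ^ n) = arithmeticRingAut (modularFunctionFieldFull N) τ
            (arithmeticRingAut (modularFunctionFieldFull N) τ f) * f /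
          (arithmeticRingAut (modularFunctionFieldFull N) τ f) ^ 2 := by
  intro n y hy hdiv
  -- the claim at every `k ≤ n`
  have key : ∀ k : ℕ, k ≤ n → ∃ u : ↥(modularFunctionFieldBar N),
      u ^ (p ^ k) = arithmeticRingAut (modularFunctionFieldFull N) τ
          (arithmeticRingAut (modularFunctionFieldFull N) τ y) * y /
        (arithmeticRingAut (modularFunctionFieldFull N) τ y) ^ 2 := by
    intro k
    induction k with
    | zero =>
      intro _
      exact ⟨_, by rw [pow_zero, pow_one]⟩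
    | succ k ih =>
      intro hk
      obtain ⟨u, hu⟩ := ih (Nat.le_of_succ_le hk)
      obtain ⟨K₁, hfin₁, hK₁⟩ := h n y hy hdiv k (Nat.lt_of_succ_le hk) u hu
      obtain ⟨K₀, hfin₀, hK₀⟩ := h12_descent_T N (p ^ n) y hy hdiv {u}
      haveI := hfin₀
      haveI := hfin₁
      haveI hfin : FiniteDimensional ℚ ↥(K₀ ⊔ K₁) :=
        IntermediateField.finiteDimensional_sup K₀ K₁
      obtain ⟨K, hK, hKfin, hKn⟩ := h12_exists_normal_ge (K₀ ⊔ K₁)
      obtain ⟨hT, f, hf, hf0, hv⟩ := hK₀ K (le_trans le_sup_left hK)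
      obtain ⟨e, he⟩ := hT u (Finset.mem_singleton_self u)
      have hef : e ^ (p ^ k)
          = tauF N (tauK K τ) (tauF N (tauK K τ) f) * f / (tauF N (tauK K τ) f) ^ 2 := by
        apply h12_iotaK_injective N K
        rw [map_pow, he, hu, h12_iotaK_secondDiff N K τ f, hf]
      obtain ⟨t, ht⟩ := hK₁ K (le_trans le_sup_right hK) hKfin hKn f e hf he hf0 hv hef
      exact ⟨t, by rw [ht, h12_iotaK_secondDiff N K τ f, hf]⟩
  exact key n le_rfl

/-- `p ^ n`-th roots go up along `ι`: the `K`-level conclusion may be stated in `F_K`. -/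
theorem h12_pow_up (K : IntermediateField ℚ Lbar) (m : ℕ)
    {u g : ↥(modularFunctionFieldFullC ↥K N)} (h : u ^ m = g) :
    ∃ u' : ↥(modularFunctionFieldBar N), u' ^ m = iotaK ↥K N g :=
  ⟨iotaK ↥K N u, by rw [← map_pow, h]⟩

end Descent

end Fermat.Agent.S34x.Desc.H12
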