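import Mathlib
import Fermat.Agent.S34x.Desc.H12_Descent
import Fermat.Agent.S34x.Top.H19_Bridge

/-!
# S34 (W10), stage (H3), the plug into the top (helper12)

* `H12StepK N p τ`        : the ONE-STEP Kummer statement over all sufficiently large number
  fields normal over `ℚ` (= the hypothesis of `h12_stKumSS_of_step`, as a `Prop`);
* `h12_stKumSS_of_stepK`  : `H12StepK N p τ → Top.H19.StKumSS N p τ`;
* `h12_stSSAt_of_stepK`   : `H12StepK N p τ → Top.H19.StSSAt N p τ`;
* `h12_stSS_of_stepK`     : (SS) at `q` from `H12StepK` at every inertia element over `q`.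
-/

set_option autoImplicit false
set_option linter.unusedSectionVars false
set_option synthInstance.maxHeartbeats 400000
set_option maxHeartbeats 1000000

noncomputable section

namespace Fermat.Agent.S34x.Desc.H12

open AlgebraicCurve ModularCurve IntermediateField HahnSeries
open Fermat.Agent.S18x.Dict.H20 Fermat.Agent.S18x.Dict.H22

local notation "Lbar" => AlgebraicClosure ℚ

variable (N p : ℕ) [NeZero N]

/-- **The one-step Kummer statement over number fields**: if the second difference `δ² y` of a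
function `y` with `p ^ n ∣ div y` is a `p ^ k`-th power `u ^ (p ^ k)` in `F_L` (`k < n`), then
over every sufficiently large number field `K` normal over `ℚ`, for all descents `f`, `e` of
`y`, `u` to `F_K` (so `e ^ (p ^ k) = δ² f`), the second difference is a `p ^ (k + 1)`-th power
in `F_L`. -/
def H12StepK (τ : Lbar ≃ₐ[ℚ] Lbar) : Prop :=
  ∀ (n : ℕ) (y : ↥(modularFunctionFieldBar N)), y ≠ 0 →
    (∀ P : Place Lbar ↥(modularFunctionFieldBar N), ((p ^ n : ℕ) : ℤ) ∣ P.ord y) →
    ∀ k : ℕ, k < n → ∀ u : ↥(modularFunctionFieldBar N),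
      u ^ (p ^ k) = arithmeticRingAut (modularFunctionFieldFull N) τ
          (arithmeticRingAut (modularFunctionFieldFull N) τ y) * y /
        (arithmeticRingAut (modularFunctionFieldFull N) τ y) ^ 2 →
    ∃ K₁ : IntermediateField ℚ Lbar, FiniteDimensional ℚ ↥K₁ ∧
      ∀ K : IntermediateField ℚ Lbar, K₁ ≤ K → FiniteDimensional ℚ ↥K → ∀ _ : Normal ℚ ↥K,
        ∀ f e : ↥(modularFunctionFieldFullC ↥K N), iotaK ↥K N f = y → iotaK ↥K N e = u →
          f ≠ 0 →
          (∀ v : Place ↥K ↥(modularFunctionFieldFullC ↥K N), ((p ^ n : ℕ) : ℤ) ∣ v.ord f) →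
          e ^ (p ^ k)
            = tauF N (tauK K τ) (tauF N (tauK K τ) f) * f / (tauF N (tauK K τ) f) ^ 2 →
          ∃ t : ↥(modularFunctionFieldBar N),
            t ^ (p ^ (k + 1)) = iotaK ↥K N
              (tauF N (tauK K τ) (tauF N (tauK K τ) f) * f / (tauF N (tauK K τ) f) ^ 2)

variable {N p}

/-- **(H3) ⟹ the Kummer form of (SS)** (helper19's `StKumSS`). -/
theorem h12_stKumSS_of_stepK (τ : Lbar ≃ₐ[ℚ] Lbar) (h : H12StepK N p τ) :
    Fermat.Agent.S34x.Top.H19.StKumSS N p τ :=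
  h12_stKumSS_of_step N p τ h

/-- **(H3) ⟹ (SS) at `τ`**. -/
theorem h12_stSSAt_of_stepK (hp : p ≠ 0) (τ : Lbar ≃ₐ[ℚ] Lbar) (h : H12StepK N p τ) :
    Fermat.Agent.S34x.Top.H19.StSSAt N p τ :=
  Fermat.Agent.S34x.Top.H19.h19b_stSSAt_of_kum hp τ (h12_stKumSS_of_stepK τ h)

/-- **(H3) ⟹ (SS) at `q`**. -/
theorem h12_stSS_of_stepK (hp : p ≠ 0) (q : ℕ)
    (h : ∀ B : ValuationSubring Lbar, B.LiesOverPrime q →
      ∀ τ ∈ B.inertiaSubgroupIn ℚ, H12StepK N p τ) :
    Fermat.Agent.S34x.Top.H19.StSS N p q :=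
  Fermat.Agent.S34x.Top.H19.h19b_stSS_of_kum hp q
    (fun B hB τ hτ => h12_stKumSS_of_stepK τ (h B hB τ hτ))

end Fermat.Agent.S34x.Desc.H12
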