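import Mathlib
import Fermat.Agent.S34x.Desc.H12_Inertia
import Fermat.Agent.S18x.IG.H29_Coord

/-!
# S34 (W10), inertia bookkeeping III (helper12): the `τ`-inputs of the step theorem, final
spelling

`A₀` a valuation subring of `ℚ̄`, `τ` in its inertia group, `K ⊆ ℚ̄` normal over `ℚ`,
`O = A₀.comap (algebraMap K ℚ̄)` a discrete valuation ring, `F = modularFunctionFieldFullC K M`
with any `Algebra O F` such that `IsScalarTower O K F`, `τ_F = tauF M (tauK K τ)`.

* `tauF_coordM`, `tauF_coordM_inv` : `τ_F` fixes the base coordinate `x = coordM K M x₀ hmem`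
  (a `q`-series with integer coefficients) and its inverse;
* `h12_hO_final`     : `τ_F (algebraMap O F c) = algebraMap O F c'`;
* `h12_hε_final`     : `(ε ε' : O) (ε * ε' = 1) (τ_F (algebraMap O F π₀) = algebraMap O F ε *
  algebraMap O F π₀)`, the shape of `h18_ss_step`;
* `h12_hτ_chart`, `h12_hτ_chart_inv`, `h12_hτ_chart₁₂` : `τ_F` preserves the three charts of the
  coordinate `x`;
* `h12_htriv_gauss`  : (TRIV) on the one-valuation Gauss ring in the `algebraMap O F π₀`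
  spelling;
* `h12_exists_zeta`  : for `m ≠ 0` there is a number field `K₁` such that `O_K` contains a
  primitive `m`-th root of unity for every `K ≥ K₁`.
-/

set_option autoImplicit false
set_option linter.unusedSectionVars false
set_option linter.style.haveILetI false
set_option synthInstance.maxHeartbeats 400000
set_option maxHeartbeats 1000000

noncomputable section

namespace Fermat.Agent.S34x.Desc.H12

open AlgebraicCurve ModularCurve IntermediateField HahnSeries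
open Fermat.Agent.S18x.Dict.H20 Fermat.Agent.S18x.Dict.H22
open Fermat.Agent.S18x.Spec.H26

local notation "Lbar" => AlgebraicClosure ℚ

section Coord

variable {K : Type} [Field K] (M : ℕ) [NeZero M]

/-- `tauF` fixes every element of `F_K` whose `q`-expansion has integer coefficients. -/
theorem tauF_of_int (σ : K ≃+* K) (x₀ : LaurentSeries ℤ)
    (hmem : coeffMap (Int.castRingHom K) x₀ ∈ modularFunctionFieldFullC K M) :
    tauF M σ ⟨coeffMap (Int.castRingHom K) x₀, hmem⟩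
      = ⟨coeffMap (Int.castRingHom K) x₀, hmem⟩ := by
  apply Subtype.ext
  show coeffMap (σ : K →+* K) (coeffMap (Int.castRingHom K) x₀)
    = coeffMap (Int.castRingHom K) x₀
  rw [coeffMap_coeffMap]
  exact coeffMap_congr (RingHom.ext_int _ _) x₀

/-- `tauF` fixes the base coordinate. -/
theorem tauF_coordM (σ : K ≃+* K) (x₀ : LaurentSeries ℤ)
    (hmem : coeffMap (Int.castRingHom K) x₀ ∈ modularFunctionFieldFullC K M) :
    tauF M σ (Fermat.Agent.S18x.IG.H29.coordM K M x₀ hmem)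
      = Fermat.Agent.S18x.IG.H29.coordM K M x₀ hmem :=
  tauF_of_int M σ x₀ hmem

/-- `tauF` fixes the inverse of the base coordinate. -/
theorem tauF_coordM_inv (σ : K ≃+* K) (x₀ : LaurentSeries ℤ)
    (hmem : coeffMap (Int.castRingHom K) x₀ ∈ modularFunctionFieldFullC K M) :
    tauF M σ (Fermat.Agent.S18x.IG.H29.coordM K M x₀ hmem)⁻¹
      = (Fermat.Agent.S18x.IG.H29.coordM K M x₀ hmem)⁻¹ := by
  rw [map_inv₀, tauF_coordM]

/-- `tauF` fixes `x'` whenever it fixes `x` and `x * x' = 1`. -/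
theorem tauF_inv_of_fixed (σ : K ≃+* K) {x x' : ↥(modularFunctionFieldFullC K M)}
    (hxx' : x * x' = 1) (hx : tauF M σ x = x) : tauF M σ x' = x' := by
  have h1 : x' = x⁻¹ := (inv_eq_of_mul_eq_one_right hxx').symm
  rw [h1, map_inv₀, hx]

end Coord

section Final

variable (A₀ : ValuationSubring Lbar) (K : IntermediateField ℚ Lbar) [Normal ℚ ↥K]
  [IsDiscreteValuationRing (A₀.comap (algebraMap ↥K Lbar))] (M : ℕ) [NeZero M]
  [Algebra (A₀.comap (algebraMap ↥K Lbar)) ↥(modularFunctionFieldFullC ↥K M)]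
  [IsScalarTower (A₀.comap (algebraMap ↥K Lbar)) ↥K ↥(modularFunctionFieldFullC ↥K M)]

/-- `τ_F` maps the image of `O` into itself. -/
theorem h12_hO_final {τ : Lbar ≃ₐ[ℚ] Lbar} (hτ : τ ∈ A₀.inertiaSubgroupIn ℚ)
    (c : A₀.comap (algebraMap ↥K Lbar)) :
    ∃ c' : A₀.comap (algebraMap ↥K Lbar),
      tauF M (tauK K τ) (algebraMap (A₀.comap (algebraMap ↥K Lbar))
          ↥(modularFunctionFieldFullC ↥K M) c)
        = algebraMap (A₀.comap (algebraMap ↥K Lbar)) ↥(modularFunctionFieldFullC ↥K M) c' := by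
  obtain ⟨c', hc'⟩ := h12_tauF_const A₀ K M hτ c
  refine ⟨c', ?_⟩
  rw [algebraMap_O_eq_unifM, algebraMap_O_eq_unifM]
  exact hc'

/-- **`hε` of the step theorem**: `τ_F π₀ = ε π₀` with `ε` a unit of `O`. -/
theorem h12_hε_final {τ : Lbar ≃ₐ[ℚ] Lbar} (hτ : τ ∈ A₀.inertiaSubgroupIn ℚ)
    (π₀ : A₀.comap (algebraMap ↥K Lbar)) (hπ₀ : Irreducible π₀) :
    ∃ ε ε' : A₀.comap (algebraMap ↥K Lbar), ε * ε' = 1 ∧
      tauF M (tauK K τ) (algebraMap (A₀.comap (algebraMap ↥K Lbar))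
          ↥(modularFunctionFieldFullC ↥K M) π₀)
        = algebraMap (A₀.comap (algebraMap ↥K Lbar)) ↥(modularFunctionFieldFullC ↥K M) ε
          * algebraMap (A₀.comap (algebraMap ↥K Lbar)) ↥(modularFunctionFieldFullC ↥K M) π₀ := by
  obtain ⟨ε, ε', hεε', hε⟩ := h12_tauK_unif A₀ K hτ π₀ hπ₀
  refine ⟨ε, ε', hεε', ?_⟩
  rw [algebraMap_O_eq_unifM, algebraMap_O_eq_unifM]
  show tauF M (tauK K τ) (algebraMap ↥K ↥(modularFunctionFieldFullC ↥K M) (π₀ : ↥K))
    = algebraMap ↥K ↥(modularFunctionFieldFullC ↥K M) (ε : ↥K)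
      * algebraMap ↥K ↥(modularFunctionFieldFullC ↥K M) (π₀ : ↥K)
  rw [tauF_algebraMap, hε, map_mul]

/-- **`hτ₁` of the step theorem**: `τ_F` preserves the chart of a fixed coordinate. -/
theorem h12_hτ_chart {τ : Lbar ≃ₐ[ℚ] Lbar} (hτ : τ ∈ A₀.inertiaSubgroupIn ℚ)
    (x : ↥(modularFunctionFieldFullC ↥K M)) (hx : tauF M (tauK K τ) x = x)
    (b : ↥(modularFunctionFieldFullC ↥K M))
    (hb : b ∈ chart (A₀.comap (algebraMap ↥K Lbar)) x) :
    tauF M (tauK K τ) b ∈ chart (A₀.comap (algebraMap ↥K Lbar)) x :=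
  h12_tau_chart ((tauF M (tauK K τ) : _ ≃+* _) : _ →+* _) x hx
    (fun c => h12_hO_final A₀ K M hτ c) b hb

/-- `τ_F` preserves `chart₁₂` of a fixed coordinate pair. -/
theorem h12_hτ_chart₁₂ {τ : Lbar ≃ₐ[ℚ] Lbar} (hτ : τ ∈ A₀.inertiaSubgroupIn ℚ)
    (x x' : ↥(modularFunctionFieldFullC ↥K M)) (hx : tauF M (tauK K τ) x = x)
    (hx' : tauF M (tauK K τ) x' = x')
    (b : ↥(modularFunctionFieldFullC ↥K M))
    (hb : b ∈ chart₁₂ (A₀.comap (algebraMap ↥K Lbar)) x x') :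
    tauF M (tauK K τ) b ∈ chart₁₂ (A₀.comap (algebraMap ↥K Lbar)) x x' :=
  h12_tau_chart₁₂ ((tauF M (tauK K τ) : _ ≃+* _) : _ →+* _) x x' hx hx'
    (fun c => h12_hO_final A₀ K M hτ c) b hb

/-- **(TRIV) on the one-valuation Gauss ring**, `algebraMap O F π₀` spelling. -/
theorem h12_htriv_gauss {τ : Lbar ≃ₐ[ℚ] Lbar} (hτ : τ ∈ A₀.inertiaSubgroupIn ℚ)
    (π₀ : A₀.comap (algebraMap ↥K Lbar)) (hπ₀ : Irreducible π₀)
    (v : ↥(modularFunctionFieldFullC ↥K M))
    (hv : v ∈ gaussValM (A₀.comap (algebraMap ↥K Lbar)) M) :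
    ∃ c ∈ gaussValM (A₀.comap (algebraMap ↥K Lbar)) M,
      tauF M (tauK K τ) v - v
        = algebraMap (A₀.comap (algebraMap ↥K Lbar)) ↥(modularFunctionFieldFullC ↥K M) π₀ * c := by
  obtain ⟨c, hc, h⟩ := h12_triv_inertia A₀ K M hτ π₀ hπ₀ v hv
  exact ⟨c, hc, by rw [h, algebraMap_O_eq_unifM]⟩

end Final

section Zeta

variable (A₀ : ValuationSubring Lbar)

/-- Elements of `ℚ̄` integral over `ℤ` lie in every valuation subring. -/
theorem h12_mem_of_isIntegral {a : Lbar} (ha : IsIntegral ℤ a) : a ∈ A₀ := by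
  have h1 : IsIntegral A₀ a := by
    obtain ⟨P, hP, hz⟩ := ha
    refine ⟨P.map (Int.castRingHom A₀), hP.map _, ?_⟩
    rw [Polynomial.eval₂_map]
    have e : (algebraMap A₀ Lbar).comp (Int.castRingHom A₀) = algebraMap ℤ Lbar :=
      RingHom.ext_int _ _
    rw [e]
    exact hz
  have h2 := (IsIntegrallyClosed.isIntegral_iff (R := A₀) (K := Lbar)).mp h1
  obtain ⟨y, hy⟩ := h2
  rw [← hy]
  exact y.2

/-- **Roots of unity**: for `m ≠ 0` there is a number field `K₁ ⊆ ℚ̄` such that for every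
`K ≥ K₁` the ring `O_K = A₀ ∩ K` contains a primitive `m`-th root of unity. -/
theorem h12_exists_zeta (m : ℕ) (hm : m ≠ 0) :
    ∃ K₁ : IntermediateField ℚ Lbar, FiniteDimensional ℚ ↥K₁ ∧
      ∀ K : IntermediateField ℚ Lbar, K₁ ≤ K →
        ∃ ζ₀ : A₀.comap (algebraMap ↥K Lbar), IsPrimitiveRoot ζ₀ m := by
  haveI : NeZero ((m : ℕ) : Lbar) := ⟨by exact_mod_cast hm⟩
  obtain ⟨ζ, hζ⟩ := HasEnoughRootsOfUnity.exists_primitiveRoot Lbar m
  have hint : IsIntegral ℤ ζ := hζ.isIntegral (Nat.pos_of_ne_zero hm)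
  have hintQ : IsIntegral ℚ ζ := hint.tower_top
  refine ⟨ℚ⟮ζ⟯, IntermediateField.adjoin.finiteDimensional hintQ, fun K hK => ?_⟩
  have hζK : ζ ∈ K := hK (IntermediateField.mem_adjoin_simple_self ℚ ζ)
  have hζA : ζ ∈ A₀ := h12_mem_of_isIntegral A₀ hint
  refine ⟨⟨⟨ζ, hζK⟩, hζA⟩, ?_⟩
  have hinj : Function.Injective
      (fun t : A₀.comap (algebraMap ↥K Lbar) => (((t : ↥K)) : Lbar)) := by
    intro a b hab
    exact Subtype.ext (Subtype.ext hab)
  let φ : (A₀.comap (algebraMap ↥K Lbar)) →+* Lbar :=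
    (algebraMap ↥K Lbar).comp (A₀.comap (algebraMap ↥K Lbar)).subtype
  have hφ : Function.Injective φ := hinj
  exact IsPrimitiveRoot.of_map_of_injective (f := φ) hζ hφ

end Zeta

end Fermat.Agent.S34x.Desc.H12
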