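import Mathlib
import Fermat.Agent.S34x.Desc.H12_DescentTop
import Fermat.Agent.S34x.Desc.H12_Final
import Fermat.Agent.S34x.Dict.H15_RatDesc

/-!
# S34 (W10), (K1-PACK) (helper12): the number field `K₁` of the descent, composed

`A₀` a valuation subring of `ℚ̄`, `τ ∈ Gal(ℚ̄ / ℚ)`, level `N`, prime `p`.

* `H12StepPack N p A₀ τ` : the PURELY `K`-LEVEL one-step statement: for every number field `K`
  normal over `ℚ` such that `O_K = A₀ ∩ K` contains a primitive `p ^ n`-th root of unity, every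
  `f ∈ F_K`, `f ≠ 0`, with `p ^ n ∣ ord_v f` at all places `v` of `F_K / K` and all of whose
  zeros and poles are `K`-rational, and every `e ∈ F_K` with `e ^ (p ^ k) = δ² f`, `k < n`:
  `δ² f` is a `p ^ (k + 1)`-th power in `F_L`;
* `h12_stepK_of_pack`    : `H12StepPack N p A₀ τ → H12StepK N p τ`; the field `K₁` is
  `K₀(y, {u}) ⊔ ℚ(ζ_{p ^ n})` with `K₀` from helper15's `h15_div_rat_descent`;
* `h12_stKumSS_of_pack`  : `H12StepPack N p A₀ τ → Top.H19.StKumSS N p τ`;
* `h12_stSS_of_pack`     : (SS) at `q` from the pack at every inertia element over `q`.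
-/

set_option autoImplicit false
set_option linter.unusedSectionVars false
set_option linter.style.haveILetI false
set_option synthInstance.maxHeartbeats 400000
set_option maxHeartbeats 1000000

noncomputable section

namespace Fermat.Agent.S34x.Desc.H12

open AlgebraicCurve ModularCurve IntermediateField HahnSeries
open Fermat.Agent.S18x.Dict.H20 Fermat.Agent.S18x.Dict.H22

local notation "Lbar" => AlgebraicClosure ℚ

variable (N p : ℕ) [NeZero N]

/-- **The one-step statement, purely at the `K`-level, with everything descended.** -/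
def H12StepPack (A₀ : ValuationSubring Lbar) (τ : Lbar ≃ₐ[ℚ] Lbar) : Prop :=
  ∀ (n : ℕ) (K : IntermediateField ℚ Lbar), FiniteDimensional ℚ ↥K → ∀ _ : Normal ℚ ↥K,
    ∀ ζ₀ : A₀.comap (algebraMap ↥K Lbar), IsPrimitiveRoot ζ₀ (p ^ n) →
    ∀ f : ↥(modularFunctionFieldFullC ↥K N), f ≠ 0 →
      (∀ v : Place ↥K ↥(modularFunctionFieldFullC ↥K N), ((p ^ n : ℕ) : ℤ) ∣ v.ord f) →
      (∀ v : Place ↥K ↥(modularFunctionFieldFullC ↥K N), v.ord f ≠ 0 →
        Fermat.Agent.S24.RH.ResidueTrivial v) →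
      ∀ k : ℕ, k < n → ∀ e : ↥(modularFunctionFieldFullC ↥K N),
        e ^ (p ^ k)
          = tauF N (tauK K τ) (tauF N (tauK K τ) f) * f / (tauF N (tauK K τ) f) ^ 2 →
        ∃ t : ↥(modularFunctionFieldBar N),
          t ^ (p ^ (k + 1)) = iotaK ↥K N
            (tauF N (tauK K τ) (tauF N (tauK K τ) f) * f / (tauF N (tauK K τ) f) ^ 2)

variable {N p}

/-- **(K1-PACK)**: the pack gives the one-step statement of the descent; the number field `K₁`
is composed here. -/
theorem h12_stepK_of_pack (hp : p ≠ 0) (A₀ : ValuationSubring Lbar) (τ : Lbar ≃ₐ[ℚ] Lbar)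
    (h : H12StepPack N p A₀ τ) : H12StepK N p τ := by
  intro n y hy hdiv k hk u _hu
  obtain ⟨K₀, hfin₀, hK₀⟩ :=
    Fermat.Agent.S34x.Dict.H15.h15_div_rat_descent N (p ^ n) y hy hdiv {u}
  obtain ⟨Kζ, hfinζ, hKζ⟩ := h12_exists_zeta A₀ (p ^ n) (pow_ne_zero n hp)
  haveI := hfin₀
  haveI := hfinζ
  refine ⟨K₀ ⊔ Kζ, IntermediateField.finiteDimensional_sup K₀ Kζ, ?_⟩
  intro K hK hKfin hKn f e hf _he hf0 hv hef
  obtain ⟨-, f', hf', -, hrat⟩ := hK₀ K (le_trans le_sup_left hK)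
  obtain ⟨ζ₀, hζ₀⟩ := hKζ K (le_trans le_sup_right hK)
  have hff' : f' = f := h12_iotaK_injective N K (by rw [hf', hf])
  rw [hff'] at hrat
  exact h n K hKfin hKn ζ₀ hζ₀ f hf0 hv hrat k hk e hef

/-- **The pack ⟹ the Kummer form of (SS)** (helper19's `StKumSS`). -/
theorem h12_stKumSS_of_pack (hp : p ≠ 0) (A₀ : ValuationSubring Lbar) (τ : Lbar ≃ₐ[ℚ] Lbar)
    (h : H12StepPack N p A₀ τ) : Fermat.Agent.S34x.Top.H19.StKumSS N p τ :=
  h12_stKumSS_of_stepK τ (h12_stepK_of_pack hp A₀ τ h)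

/-- **The pack ⟹ (SS) at `q`**. -/
theorem h12_stSS_of_pack (hp : p ≠ 0) (q : ℕ)
    (h : ∀ B : ValuationSubring Lbar, B.LiesOverPrime q →
      ∀ τ ∈ B.inertiaSubgroupIn ℚ, H12StepPack N p B τ) :
    Fermat.Agent.S34x.Top.H19.StSS N p q :=
  h12_stSS_of_stepK hp q (fun B hB τ hτ => h12_stepK_of_pack hp B τ (h B hB τ hτ))

end Fermat.Agent.S34x.Desc.H12
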