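import Fermat.Agent.S34x.Desc.H16_LevelTop
import Fermat.Agent.S37x.Move.H17_StSpec

/-!
# W10 / S34: the final plug, against ONE geometric hypothesis (helper16)

`StKumGeom` : **the export the geometric chain of W10 has to deliver**: for a level `M`, a prime
`q ∤ M`, an auxiliary prime `p₀ ∈ {2, 3}`, `p₀ ≠ q`, `p₀ ∣ M`, and a prime `p ≠ q`: the Kummer
form `StKumSS (M * q) p τ` of (SS) at every inertia element `τ` over `q`.

`h16_s34_of_geom` : the frozen statement S34 (in the spelling of `h19u_s34_of_ss`) from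
`StKumGeom`, by `h19b_stSS_of_kum` (helper19's bridge), `h16_stSS_of_level` (LEVEL:
`N ∣ N' = (p₀ * (N / q)) * q`), `h17_stSpec_final` and `h19u_s34_of_ss` (helper19's top).
-/

set_option autoImplicit false
set_option linter.style.haveILetI false

open ModularCurve

noncomputable section

namespace Fermat.Agent.S34x.Desc.H16

open Fermat.Agent.S34x.Top.H19

/-- **The geometric export of W10**: the Kummer form of (SS) at the levels `M * q` with a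
Hauptmodul prime `p₀ ∈ {2, 3}`, `p₀ ≠ q`, `p₀ ∣ M`. -/
def StKumGeom : Prop :=
  ∀ (M q p p₀ : ℕ), M ≠ 0 → q.Prime → p.Prime → q ≠ p → ¬ q ∣ M →
    (p₀ = 2 ∨ p₀ = 3) → p₀ ≠ q → p₀ ∣ M →
    ∀ B : ValuationSubring (AlgebraicClosure ℚ), B.LiesOverPrime q →
      ∀ τ ∈ B.inertiaSubgroupIn ℚ, StKumSS (M * q) p τ

/-- a Hauptmodul prime different from `q`. -/
theorem h16_exists_p0 (q : ℕ) : ∃ p₀ : ℕ, (p₀ = 2 ∨ p₀ = 3) ∧ p₀ ≠ q := by
  by_cases h : q = 2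
  · exact ⟨3, Or.inr rfl, by omega⟩
  · exact ⟨2, Or.inl rfl, fun h2 => h h2.symm⟩

/-- **(SS) at every level `N` with `q ∥ N`**, from the geometric export. -/
theorem h16_stSS_of_geom (hG : StKumGeom) {N p q : ℕ} [NeZero N] (hp : p.Prime)
    (hq : q.Prime) (hqp : q ≠ p) (hqN : q ∣ N) (hq2 : ¬ q ^ 2 ∣ N) : StSS N p q := by
  obtain ⟨p₀, hp₀, hp₀q⟩ := h16_exists_p0 q
  obtain ⟨M₀, rfl⟩ := hqN
  have hN0 : q * M₀ ≠ 0 := NeZero.ne _
  have hM₀0 : M₀ ≠ 0 := fun h => hN0 (by rw [h, mul_zero])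
  have hqM₀ : ¬ q ∣ M₀ := by
    rintro ⟨c, rfl⟩
    exact hq2 ⟨c, by ring⟩
  have hp₀0 : p₀ ≠ 0 := by rcases hp₀ with rfl | rfl <;> norm_num
  have hp₀p : p₀.Prime := by rcases hp₀ with rfl | rfl <;> norm_num
  have hqM : ¬ q ∣ p₀ * M₀ := by
    intro h
    rcases (Nat.Prime.dvd_mul hq).mp h with h1 | h1
    · exact hp₀q ((Nat.prime_dvd_prime_iff_eq hq hp₀p).mp h1).symm
    · exact hqM₀ h1
  haveI : NeZero (p₀ * M₀ * q) :=
    ⟨Nat.mul_ne_zero (Nat.mul_ne_zero hp₀0 hM₀0) hq.ne_zero⟩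
  have hdvd : q * M₀ ∣ p₀ * M₀ * q := ⟨p₀, by ring⟩
  exact h16_stSS_of_kum_level hdvd hp q
    (hG (p₀ * M₀) q p p₀ (Nat.mul_ne_zero hp₀0 hM₀0) hq hp hqp hqM hp₀ hp₀q (Dvd.intro _ rfl))

section Final

variable {p : ℕ} {N : ℕ} [NeZero N] {S : Finset ℕ}
  {𝒪 : Type} [CommRing 𝒪] [IsDomain 𝒪] [IsDiscreteValuationRing 𝒪]
  [IsAdicComplete (IsLocalRing.maximalIdeal 𝒪) 𝒪]
  {θ : CuspForm.heckeAlgebra N 2 (↑S : Set ℕ) →+* IsLocalRing.ResidueField 𝒪}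
  {T : Type} [CommRing T] [IsLocalRing T] [IsNoetherianRing T]
  [IsAdicComplete (IsLocalRing.maximalIdeal T) T] [Algebra 𝒪 T] [IsLocalHom (algebraMap 𝒪 T)]
  [Module.Finite 𝒪 T] [Module.Free 𝒪 T]

/-- **S34 from the geometric export.** -/
theorem h16_s34_of_geom (hG : StKumGeom) (hp : p.Prime)
    (hp𝒪 : (p : 𝒪) ∈ IsLocalRing.maximalIdeal 𝒪) (hpS : p ∈ S)
    (hNS : ∀ q : ℕ, q.Prime → q ∣ N → q ∈ S)
    (H : CuspForm.HeckeGaloisRepDatum N (↑S : Set ℕ) 𝒪 θ T)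
    (q : ℕ) (hq : q.Prime) (hqp : q ≠ p) (hqN : q ∣ N) (hq2 : ¬ q ^ 2 ∣ N) :
    H.ρ.IsUnipotentOnInertiaAt q :=
  h19u_s34_of_ss (Fermat.Agent.S37x.Move.H17.h17_stSpec_final N p) hp hp𝒪 hpS hNS H q hq hqp
    (h16_stSS_of_geom hG hp hq hqp hqN hq2)

end Final

end Fermat.Agent.S34x.Desc.H16
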