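import Fermat.Agent.S34x.Desc.H16_FinalPlug
import Fermat.Agent.S34x.Desc.H12_K1

/-!
# W10 / S34: the final plug against the purely `K`-level one-step statement (helper16)

`StPackGeom` : helper12's `H12StepPack (M * q) p B τ` (the one-step statement over a number field
`K`, everything descended) at the levels `M * q` of `StKumGeom`, for every valuation subring `B`
of `ℚ̄` over `q` and every inertia element `τ` of `B`.

* `h16_geom_of_pack` : `StPackGeom → StKumGeom`;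
* `h16_s34_of_pack`  : the frozen statement S34 from `StPackGeom`.
-/

set_option autoImplicit false
set_option linter.style.haveILetI false

open ModularCurve

noncomputable section

namespace Fermat.Agent.S34x.Desc.H16

open Fermat.Agent.S34x.Top.H19

/-- **The geometric export of W10, `K`-level form**: helper12's one-step pack at the levels
`M * q` with a Hauptmodul prime `p₀ ∈ {2, 3}`, `p₀ ≠ q`, `p₀ ∣ M`. -/
def StPackGeom : Prop :=
  ∀ (M q p p₀ : ℕ) [NeZero (M * q)], q.Prime → p.Prime → q ≠ p → ¬ q ∣ M →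
    (p₀ = 2 ∨ p₀ = 3) → p₀ ≠ q → p₀ ∣ M →
    ∀ B : ValuationSubring (AlgebraicClosure ℚ), B.LiesOverPrime q →
      ∀ τ ∈ B.inertiaSubgroupIn ℚ, Fermat.Agent.S34x.Desc.H12.H12StepPack (M * q) p B τ

/-- **`StPackGeom → StKumGeom`.** -/
theorem h16_geom_of_pack (h : StPackGeom) : StKumGeom := by
  intro M q p p₀ hM hq hp hqp hqM hp₀ hp₀q hp₀M B hB τ hτ
  haveI : NeZero (M * q) := ⟨Nat.mul_ne_zero hM hq.ne_zero⟩
  exact Fermat.Agent.S34x.Desc.H12.h12_stKumSS_of_pack hp.ne_zero B τ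
    (h M q p p₀ hq hp hqp hqM hp₀ hp₀q hp₀M B hB τ hτ)

section Final

variable {p : ℕ} {N : ℕ} [NeZero N] {S : Finset ℕ}
  {𝒪 : Type} [CommRing 𝒪] [IsDomain 𝒪] [IsDiscreteValuationRing 𝒪]
  [IsAdicComplete (IsLocalRing.maximalIdeal 𝒪) 𝒪]
  {θ : CuspForm.heckeAlgebra N 2 (↑S : Set ℕ) →+* IsLocalRing.ResidueField 𝒪}
  {T : Type} [CommRing T] [IsLocalRing T] [IsNoetherianRing T]
  [IsAdicComplete (IsLocalRing.maximalIdeal T) T] [Algebra 𝒪 T] [IsLocalHom (algebraMap 𝒪 T)]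
  [Module.Finite 𝒪 T] [Module.Free 𝒪 T]

/-- **S34 from the `K`-level geometric export.** -/
theorem h16_s34_of_pack (hG : StPackGeom) (hp : p.Prime)
    (hp𝒪 : (p : 𝒪) ∈ IsLocalRing.maximalIdeal 𝒪) (hpS : p ∈ S)
    (hNS : ∀ q : ℕ, q.Prime → q ∣ N → q ∈ S)
    (H : CuspForm.HeckeGaloisRepDatum N (↑S : Set ℕ) 𝒪 θ T)
    (q : ℕ) (hq : q.Prime) (hqp : q ≠ p) (hqN : q ∣ N) (hq2 : ¬ q ^ 2 ∣ N) :
    H.ρ.IsUnipotentOnInertiaAt q :=
  h16_s34_of_geom (h16_geom_of_pack hG) hp hp𝒪 hpS hNS H q hq hqp hqN hq2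

end Final

end Fermat.Agent.S34x.Desc.H16
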