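import Mathlib
import Fermat.Agent.S34x.Desc.H12_K1
import Fermat.Agent.S34x.Asm.H25_Top

/-!
# S34 (W10), (K1-PACK) for the assembly (helper12): `H12StepPack → H25Step`

helper25's `Asm.H25.H25Step N p τ` (the hypothesis of `h25_stKumSS_of_step`) from the purely
`K`-level pack `H12StepPack N p A₀ τ`; the number field `K₁` is composed here:
`K₁ = K₀(y) ⊔ ℚ(ζ_{p ^ n})`, `K₀` from helper15's `h15_div_rat_descent`.

* `h12_iotaK_secondDiff_eq` : `ι (δ²_K f) = h25SD N τ (ι f)`;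
* `h12_h25Step_of_pack`     : `H12StepPack N p A₀ τ → H25Step N p τ`.
-/

set_option autoImplicit false
set_option linter.unusedSectionVars false
set_option linter.style.haveILetI false
set_option synthInstance.maxHeartbeats 400000
set_option maxHeartbeats 1000000

noncomputable section

namespace Fermat.Agent.S34x.Desc.H12

open AlgebraicCurve ModularCurve IntermediateField HahnSeries
open Fermat.Agent.S18x.Dict.H20 Fermat.Agent.S18x.Dict.H22
open Fermat.Agent.S34x.Asm.H25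

local notation "Lbar" => AlgebraicClosure ℚ

variable {N p : ℕ} [NeZero N]

/-- `ι` of the second difference over `K` is helper25's second difference `h25SD`. -/
theorem h12_iotaK_secondDiff_eq (K : IntermediateField ℚ Lbar) [Normal ℚ ↥K]
    (τ : Lbar ≃ₐ[ℚ] Lbar) (f : ↥(modularFunctionFieldFullC ↥K N)) :
    iotaK ↥K N (tauF N (tauK K τ) (tauF N (tauK K τ) f) * f / (tauF N (tauK K τ) f) ^ 2)
      = h25SD N τ (iotaK ↥K N f) :=
  h12_iotaK_secondDiff N K τ f

/-- **(K1-PACK) for helper25's top**: the purely `K`-level pack gives `H25Step`. -/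
theorem h12_h25Step_of_pack (hp : p ≠ 0) (A₀ : ValuationSubring Lbar) (τ : Lbar ≃ₐ[ℚ] Lbar)
    (h : H12StepPack N p A₀ τ) : H25Step N p τ := by
  intro n y hy hdiv
  obtain ⟨K₀, hfin₀, hK₀⟩ :=
    Fermat.Agent.S34x.Dict.H15.h15_div_rat_descent N (p ^ n) y hy hdiv ∅
  obtain ⟨Kζ, hfinζ, hKζ⟩ := h12_exists_zeta A₀ (p ^ n) (pow_ne_zero n hp)
  haveI := hfin₀
  haveI := hfinζ
  refine ⟨K₀ ⊔ Kζ, IntermediateField.finiteDimensional_sup K₀ Kζ, ?_⟩
  intro K hK hKfin hKn f hf hv k hk g hg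
  haveI := hKn
  obtain ⟨-, f', hf', -, hrat⟩ := hK₀ K (le_trans le_sup_left hK)
  obtain ⟨ζ₀, hζ₀⟩ := hKζ K (le_trans le_sup_right hK)
  have hff' : f' = f := h12_iotaK_injective N K (by rw [hf', hf])
  rw [hff'] at hrat
  have hf0 : f ≠ 0 := by
    intro h0
    apply hy
    rw [← hf, h0, map_zero]
  have hgf : g ^ (p ^ k)
      = tauF N (tauK K τ) (tauF N (tauK K τ) f) * f / (tauF N (tauK K τ) f) ^ 2 := by
    apply h12_iotaK_injective N K
    rw [map_pow, hg, h12_iotaK_secondDiff_eq K τ f, hf]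
  obtain ⟨t, ht⟩ := h n K hKfin hKn ζ₀ hζ₀ f hf0 hv hrat k hk g hgf
  exact ⟨t, by rw [ht, h12_iotaK_secondDiff_eq K τ f, hf]⟩

/-- **The pack ⟹ the Kummer form of (SS)**, through helper25's devissage. -/
theorem h12_stKumSS_of_pack' (hp : p ≠ 0) (A₀ : ValuationSubring Lbar) (τ : Lbar ≃ₐ[ℚ] Lbar)
    (h : H12StepPack N p A₀ τ) : Fermat.Agent.S34x.Top.H19.StKumSS N p τ :=
  h25_stKumSS_of_step N p τ (h12_h25Step_of_pack hp A₀ τ h)

end Fermat.Agent.S34x.Desc.H12
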