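import Fermat.Agent.S37x.Level.H4_KerInc
import Fermat.Agent.S42x.Gal.H19_Equiv
import Fermat.Prelude.Def_ModularCurve_ArithmeticGalois

/-!
# W10 / S34, package [DESC] (helper16): descent from an auxiliary level

For `N ∣ N'` the pull-back of divisor classes along the inclusion `F_N ⊆ F_{N'}` of the
function fields over `ℚ̄` is a homomorphism `ι : J₀(N) → J₀(N')` which

* commutes with the Galois action of `Gal(ℚ̄/ℚ)`;
* has kernel killed by `d = [F_{N'} : F_N] > 0`.

Consequences: every identity between Galois operators which holds on the `p`-power torsion of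
`J₀(N')` holds on the `p`-power torsion of `J₀(N)` up to the factor `d` (`h16_desc_of_forall`);
in particular `(τ' - 1)(τ - 1) = 0` on `J₀(N')[p^∞]` gives `d (τ' - 1)(τ - 1) = 0` on
`J₀(N)[p^∞]` (`h16_secondDiff_desc`).

Mathlib + prelude + (frozen, import only) `S37x/Level/H4_KerInc`, `S42x/Gal/H19_Equiv`.
-/

set_option autoImplicit false
set_option linter.style.haveILetI false
set_option linter.unusedSectionVars false

open AlgebraicCurve ModularCurve

noncomputable section

namespace Fermat.Agent.S34x.Desc.H16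

section Abstract

variable {K F F' : Type*} [Field K] [Field F] [Field F'] [Algebra K F] [Algebra K F']

/-- pull-back on `Pic⁰` (tower form) is equivariant for compatible semilinear automorphisms. -/
theorem h16_pic0_pullback_smul [Algebra F F'] [IsScalarTower K F F'] [Algebra.IsIntegral F F']
    [HasPrincipalDivisors K F'] [FundamentalIdentity K F F']
    (g : SemilinearAut K F) (g' : SemilinearAut K F')
    (hc : ∀ x : F, algebraMap F F' (g • x) = g' • algebraMap F F' x) (x : Pic0 K F) :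
    Pic0.pullbackHom F' (g • x) = g' • Pic0.pullbackHom F' x := by
  obtain ⟨D, rfl⟩ := Pic0.mk_surjective x
  rw [SemilinearAut.pic0_smul_mk, Pic0.pullbackHom_mk, Pic0.pullbackHom_mk,
    SemilinearAut.pic0_smul_mk]
  congr 1
  apply Subtype.ext
  rw [Pic0.coe_pullbackDegZeroHom, SemilinearAut.coe_degZeroSMulHom,
    SemilinearAut.coe_degZeroSMulHom, Pic0.coe_pullbackDegZeroHom]
  exact Fermat.Agent.S42x.Gal.H19.h19_pullback_smul g g' hc (D : Divisor K F)

/-- **abstract [DESC]**: along an integral, finite `φ : F →ₐ[K] F'` with the fundamental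
identity and the norm formula, places of `F` of non-zero degree: there is a homomorphism
`ι : Pic⁰ F → Pic⁰ F'`, equivariant for every compatible pair of semilinear automorphisms, whose
kernel is killed by `d = [F' : F] > 0`. -/
theorem h16_desc_abs [HasPrincipalDivisors K F'] (φ : F →ₐ[K] F')
    (hφ : φ.toRingHom.IsIntegral) (hfin : FiniteAlong K φ)
    (hFI : FundamentalIdentityAlong K φ hφ) (hN : NormFormulaAlong K φ hfin)
    (hdeg : ∀ v : Place K F, v.deg ≠ 0) :
    ∃ (ι : Pic0 K F →+ Pic0 K F') (d : ℕ), 0 < d ∧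
      (∀ (g : SemilinearAut K F) (g' : SemilinearAut K F'),
        (∀ x : F, φ (g • x) = g' • φ x) → ∀ x : Pic0 K F, ι (g • x) = g' • ι x) ∧
      (∀ x : Pic0 K F, ι x = 0 → d • x = 0) := by
  letI : Algebra F F' := algebraAlong φ
  haveI : IsScalarTower K F F' := isScalarTower_along φ
  haveI : Algebra.IsIntegral F F' := isIntegral_along φ hφ
  haveI : FundamentalIdentity K F F' := hFI
  haveI : Module.Finite F F' := hfin
  refine ⟨Pic0.pullbackHom (K := K) (F := F) F', Module.finrank F F', Module.finrank_pos,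
    fun g g' hc x => h16_pic0_pullback_smul g g' hc x, fun x hx => ?_⟩
  exact Fermat.Agent.S37x.Level.H4.h4_smul_eq_zero_of_pullbackHom_eq_zero hN hdeg x hx

end Abstract

section Modular

local notation "Qbar" => AlgebraicClosure ℚ

variable (N N' : ℕ) [NeZero N] [NeZero N']

/-- the underlying Laurent series of `incL x` is the one of `x`. -/
theorem h16_coe_incL (h : N ∣ N') (x : modularFunctionFieldBar N) :
    ((Fermat.Agent.S37x.Asm.incL N N' h x : modularFunctionFieldBar N') :
      LaurentSeries Qbar) = (x : LaurentSeries Qbar) := by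
  unfold Fermat.Agent.S37x.Asm.incL
  exact IntermediateField.coe_inclusion _ _

/-- The inclusion `F_N ⊆ F_{N'}` commutes with the arithmetic Galois action (both are the
coefficientwise action on Laurent series). -/
theorem h16_incL_compat (h : N ∣ N') (σ : Qbar ≃ₐ[ℚ] Qbar) (x : modularFunctionFieldBar N) :
    Fermat.Agent.S37x.Asm.incL N N' h (arithmeticGalois (modularFunctionFieldFull N) σ • x)
      = arithmeticGalois (modularFunctionFieldFull N') σ •
          Fermat.Agent.S37x.Asm.incL N N' h x := by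
  apply Subtype.ext
  rw [h16_coe_incL, coe_arithmeticGalois_smul, coe_arithmeticGalois_smul, h16_coe_incL]

/-- **[DESC]** the pull-back `J₀(N) → J₀(N')` for `N ∣ N'`: Galois-equivariant, with kernel
killed by a positive integer `d`. -/
theorem h16_level_desc (h : N ∣ N') :
    ∃ (ι : JZero N →+ JZero N') (d : ℕ), 0 < d ∧
      (∀ (σ : Qbar ≃ₐ[ℚ] Qbar) (x : JZero N), ι (σ • x) = σ • ι x) ∧
      (∀ x : JZero N, ι x = 0 → d • x = 0) := by
  obtain ⟨hint, hPD, hfin, hFI, hN, -, hdegN⟩ := Fermat.Agent.S37x.FFL.H9.h9_stFFL N N' h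
  obtain ⟨ι, d, hd, hι, hker⟩ := h16_desc_abs (Fermat.Agent.S37x.Asm.incL N N' h) hint hfin
    hFI hN (fun v => by rw [hdegN v]; exact one_ne_zero)
  refine ⟨ι, d, hd, fun σ x => ?_, hker⟩
  rw [galois_smul_pic0_def, galois_smul_pic0_def]
  exact hι _ _ (fun y => h16_incL_compat N N' h σ y) x

/-- **[DESC], operator form.** Let `Φ` on `J₀(N)` and `Φ'` on `J₀(N')` be operators built from
the Galois action in the same way (formally: `ι ∘ Φ = Φ' ∘ ι` for every equivariant additive
`ι`).  If `Φ'` kills the `p`-power torsion of `J₀(N')`, then `d • Φ` kills the `p`-power torsion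
of `J₀(N)`, with `d > 0` depending only on `N, N'`. -/
theorem h16_desc_of_forall (h : N ∣ N') (p : ℕ) :
    ∃ d : ℕ, 0 < d ∧ ∀ (Φ : JZero N → JZero N) (Φ' : JZero N' → JZero N'),
      (∀ ι : JZero N →+ JZero N',
        (∀ (σ : Qbar ≃ₐ[ℚ] Qbar) (x : JZero N), ι (σ • x) = σ • ι x) →
          ∀ x, ι (Φ x) = Φ' (ι x)) →
      (∀ y : JZero N', (∃ n : ℕ, p ^ n • y = 0) → Φ' y = 0) →
      ∀ x : JZero N, (∃ n : ℕ, p ^ n • x = 0) → d • Φ x = 0 := by
  obtain ⟨ι, d, hd, hι, hker⟩ := h16_level_desc N N' h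
  refine ⟨d, hd, fun Φ Φ' hΦ hSS x ⟨n, hn⟩ => hker _ ?_⟩
  rw [hΦ ι hι x]
  exact hSS _ ⟨n, by rw [← map_nsmul, hn, map_zero]⟩

/-- **[DESC] for the second difference**: if `(τ' - 1)(τ - 1) = 0` on the `p`-power torsion of
`J₀(N')` for all `τ, τ'` in a set `I` of Galois elements, then `d (τ' - 1)(τ - 1) = 0` on the
`p`-power torsion of `J₀(N)`, with one `d > 0` (depending only on `N, N'`). -/
theorem h16_secondDiff_desc (h : N ∣ N') (p : ℕ) :
    ∃ d : ℕ, 0 < d ∧ ∀ I : Set (Qbar ≃ₐ[ℚ] Qbar),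
      (∀ τ ∈ I, ∀ τ' ∈ I, ∀ y : JZero N', (∃ n : ℕ, p ^ n • y = 0) →
        τ' • τ • y - τ' • y - τ • y + y = 0) →
      ∀ τ ∈ I, ∀ τ' ∈ I, ∀ x : JZero N, (∃ n : ℕ, p ^ n • x = 0) →
        d • (τ' • τ • x - τ' • x - τ • x + x) = 0 := by
  obtain ⟨ι, d, hd, hι, hker⟩ := h16_level_desc N N' h
  refine ⟨d, hd, fun I hSS τ hτ τ' hτ' x ⟨n, hn⟩ => hker _ ?_⟩
  rw [map_add, map_sub, map_sub, hι, hι, hι]
  exact hSS τ hτ τ' hτ' _ ⟨n, by rw [← map_nsmul, hn, map_zero]⟩

end Modular

end Fermat.Agent.S34x.Desc.H16
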