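import Fermat.Agent.S34x.Desc.H16_LevelDesc

/-!
# W10 / S34, stage (H2) LEVEL (helper16): (SS) descends from level `N'` to every level `N ∣ N'`

`h16_ss_level` : the bounded-exponent form of (SS) at one Galois element `τ`

  `∃ c, ∀ x ∈ J₀(·)[p^∞], p ^ c • (τ τ x - 2 τ x + x) = 0`

(= the body of `Fermat.Agent.S34x.Top.H19.StSSAt`, verbatim) at level `N'` implies the same
statement at level `N`, for every `N ∣ N'`.  `h16_ss_level_all` : the same for all `τ` in a set.

The statement is spelled with the unfolded body of `StSSAt` so that this file does not import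
the (heavy) top of S34; `StSSAt N' p τ → StSSAt N p τ` is `h16_ss_level N N' h hp τ`.
-/

set_option autoImplicit false
set_option linter.style.haveILetI false
set_option linter.unusedSectionVars false

open AlgebraicCurve ModularCurve

noncomputable section

namespace Fermat.Agent.S34x.Desc.H16

local notation "Qbar" => AlgebraicClosure ℚ

/-- an element killed by two coprime natural numbers is zero. -/
theorem h16_eq_zero_of_coprime {J : Type*} [AddCommGroup J] (y : J) {a b : ℕ}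
    (hab : Nat.Coprime a b) (ha : a • y = 0) (hb : b • y = 0) : y = 0 := by
  have h1 := Nat.gcd_eq_gcd_ab a b
  rw [hab.gcd_eq_one] at h1
  have h2 : ((1 : ℕ) : ℤ) • y = 0 := by
    rw [h1, add_smul, mul_comm (a : ℤ), mul_comm (b : ℤ), mul_smul, mul_smul, natCast_zsmul,
      natCast_zsmul, ha, hb, smul_zero, smul_zero, add_zero]
  simpa using h2

/-- the Galois action commutes with multiplication by natural numbers. -/
theorem h16_smul_nsmul {G J : Type*} [Monoid G] [AddCommGroup J] [DistribMulAction G J]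
    (σ : G) (n : ℕ) (x : J) : σ • (n • x) = n • (σ • x) :=
  smul_comm σ n x

/-- the second difference of a `p`-power torsion element is `p`-power torsion. -/
theorem h16_secondDiff_torsion {G J : Type*} [Monoid G] [AddCommGroup J] [DistribMulAction G J]
    (τ : G) (m : ℕ) (x : J) (hx : m • x = 0) : m • (τ • τ • x - 2 • τ • x + x) = 0 := by
  have e1 : m • (τ • x) = 0 := by rw [← h16_smul_nsmul, hx, smul_zero]
  have e2 : m • (τ • τ • x) = 0 := by rw [← h16_smul_nsmul, e1, smul_zero]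
  rw [nsmul_add, nsmul_sub, e2, smul_comm m 2, e1, hx]
  simp

/-- from an arbitrary non-zero multiplier `d` to a power of `p` (on `p`-power torsion). -/
theorem h16_pow_of_nsmul {G J : Type*} [Monoid G] [AddCommGroup J] [DistribMulAction G J]
    {p : ℕ} (hp : p.Prime) (τ : G) (d : ℕ) (hd : d ≠ 0)
    (h : ∀ x : J, (∃ n : ℕ, p ^ n • x = 0) → d • (τ • τ • x - 2 • τ • x + x) = 0) :
    ∃ c : ℕ, ∀ x : J, (∃ n : ℕ, p ^ n • x = 0) → p ^ c • (τ • τ • x - 2 • τ • x + x) = 0 := by
  obtain ⟨c, d', hd', rfl⟩ := Nat.exists_eq_pow_mul_and_not_dvd hd p hp.ne_one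
  refine ⟨c, fun x hx => ?_⟩
  obtain ⟨n, hn⟩ := hx
  have hny := h16_secondDiff_torsion τ (p ^ n) x hn
  have hcop : Nat.Coprime d' (p ^ n) :=
    ((Nat.Prime.coprime_iff_not_dvd hp).mpr hd').symm.pow_right n
  refine h16_eq_zero_of_coprime (p ^ c • (τ • τ • x - 2 • τ • x + x)) hcop ?_ ?_
  · rw [← mul_smul, mul_comm]
    exact h x ⟨n, hn⟩
  · rw [smul_comm, hny, smul_zero]

variable (N N' : ℕ) [NeZero N] [NeZero N']

/-- **(H2) LEVEL**: (SS) at `τ` (bounded-exponent form, the body of `StSSAt`) at level `N'`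
implies (SS) at `τ` at every level `N ∣ N'`. -/
theorem h16_ss_level (h : N ∣ N') {p : ℕ} (hp : p.Prime) (τ : Qbar ≃ₐ[ℚ] Qbar)
    (hSS : ∃ c : ℕ, ∀ x : JZero N', (∃ n : ℕ, p ^ n • x = 0) →
      p ^ c • (τ • τ • x - 2 • τ • x + x) = 0) :
    ∃ c : ℕ, ∀ x : JZero N, (∃ n : ℕ, p ^ n • x = 0) →
      p ^ c • (τ • τ • x - 2 • τ • x + x) = 0 := by
  obtain ⟨c, hc⟩ := hSS
  obtain ⟨ι, d, hd, hι, hker⟩ := h16_level_desc N N' h
  refine h16_pow_of_nsmul hp τ (d * p ^ c) (Nat.mul_ne_zero hd.ne' (pow_ne_zero c hp.ne_zero))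
    fun x hx => ?_
  obtain ⟨n, hn⟩ := hx
  rw [mul_smul]
  apply hker
  rw [map_nsmul, map_add, map_sub, map_nsmul, hι, hι]
  exact hc (ι x) ⟨n, by rw [← map_nsmul, hn, map_zero]⟩

/-- **(H2) LEVEL**, for all `τ` of a set (e.g. an inertia group). -/
theorem h16_ss_level_all (h : N ∣ N') {p : ℕ} (hp : p.Prime) (I : Set (Qbar ≃ₐ[ℚ] Qbar))
    (hSS : ∀ τ ∈ I, ∃ c : ℕ, ∀ x : JZero N', (∃ n : ℕ, p ^ n • x = 0) →
      p ^ c • (τ • τ • x - 2 • τ • x + x) = 0) :
    ∀ τ ∈ I, ∃ c : ℕ, ∀ x : JZero N, (∃ n : ℕ, p ^ n • x = 0) →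
      p ^ c • (τ • τ • x - 2 • τ • x + x) = 0 :=
  fun τ hτ => h16_ss_level N N' h hp τ (hSS τ hτ)

end Fermat.Agent.S34x.Desc.H16
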