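import Fermat.Agent.S34x.Desc.H16_LevelSS
import Fermat.Agent.S34x.Top.H19_Bridge

/-!
# W10 / S34, stage (H2) LEVEL, plugged into the top (helper16)

* `h16_stSSAt_of_level` : `StSSAt N' p τ → StSSAt N p τ` for `N ∣ N'`;
* `h16_stSS_of_level`   : `StSS N' p q → StSS N p q` for `N ∣ N'`;
* `h16_stSS_of_kum_level` : (SS) at level `N` from the Kummer form `StKumSS` at an auxiliary
  level `N'` (any multiple of `N`) at every inertia element over `q`.

So the geometric chain has to deliver `StKumSS N' p τ` at ONE multiple `N'` of `N` only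
(e.g. `N' = p₀ N`).
-/

set_option autoImplicit false

open ModularCurve

noncomputable section

namespace Fermat.Agent.S34x.Desc.H16

open Fermat.Agent.S34x.Top.H19

variable {N N' p : ℕ} [NeZero N] [NeZero N']

/-- **LEVEL**, at one element. -/
theorem h16_stSSAt_of_level (h : N ∣ N') (hp : p.Prime)
    (τ : AlgebraicClosure ℚ ≃ₐ[ℚ] AlgebraicClosure ℚ) (hSS : StSSAt N' p τ) : StSSAt N p τ :=
  h16_ss_level N N' h hp τ hSS

/-- **LEVEL**, at a prime `q`. -/
theorem h16_stSS_of_level (h : N ∣ N') (hp : p.Prime) (q : ℕ) (hSS : StSS N' p q) :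
    StSS N p q :=
  fun B hB τ hτ => h16_stSSAt_of_level h hp τ (hSS B hB τ hτ)

/-- (SS) at level `N` from the Kummer form at an auxiliary level `N'`. -/
theorem h16_stSS_of_kum_level (h : N ∣ N') (hp : p.Prime) (q : ℕ)
    (hKum : ∀ B : ValuationSubring (AlgebraicClosure ℚ), B.LiesOverPrime q →
      ∀ τ ∈ B.inertiaSubgroupIn ℚ, StKumSS N' p τ) : StSS N p q :=
  h16_stSS_of_level h hp q (h19b_stSS_of_kum hp.ne_zero q hKum)

end Fermat.Agent.S34x.Desc.H16
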